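/-
Taylor-Wiles generators: the deformation conditions pass to quotients of the coefficient ring.
-/
import Fermat.Prelude.Def_GaloisRep_Flat
import Fermat.Prelude.Def_GaloisRep_StrictOrdinary
import Fermat.Agent.Deform.MatrixRep

set_option autoImplicit false
set_option linter.style.haveILetI false

noncomputable section

open IsLocalRing
open scoped TensorProduct

namespace Fermat.Agent.TW56

variable {A B : Type} [CommRing A] [IsLocalRing A] [CommRing B] [IsLocalRing B]
variable {φ : A →+* B} (hφ : IsLocalHom φ) {ρ : GaloisRepAdic A}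

omit [IsLocalRing A] [IsLocalRing B] in
theorem map_mem_span_natCast {n : ℕ} {x : A} (h : x ∈ Ideal.span {((n : ℕ) : A)}) :
    φ x ∈ Ideal.span {((n : ℕ) : B)} := by
  rw [Ideal.mem_span_singleton] at h ⊢
  simpa using map_dvd φ h

theorem isUnramifiedAt_baseChange {q : ℕ} (h : ρ.IsUnramifiedAt q) :
    (ρ.baseChangeAlong φ hφ).IsUnramifiedAt q := fun P hP σ hσ => by
  letI : Algebra A B := φ.toAlgebra
  show (ρ.ρ σ).baseChange B = 1
  rw [h P hP σ hσ, LinearMap.baseChange_one]

theorem isUnipotentOnInertiaAt_baseChange {q : ℕ} (h : ρ.IsUnipotentOnInertiaAt q) :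
    (ρ.baseChangeAlong φ hφ).IsUnipotentOnInertiaAt q := fun P hP σ hσ => by
  letI : Algebra A B := φ.toAlgebra
  show ((ρ.ρ σ).baseChange B).charpoly = _
  rw [LinearMap.charpoly_baseChange, h P hP σ hσ, Polynomial.map_pow, Polynomial.map_sub,
    Polynomial.map_X, Polynomial.map_one]

theorem detIsCyclotomic_baseChange {p : ℕ} (h : ρ.DetIsCyclotomic p) :
    (ρ.baseChangeAlong φ hφ).DetIsCyclotomic p := by
  letI : Algebra A B := φ.toAlgebra
  refine ⟨?_, fun n σ a ha => ?_⟩
  · rw [← map_natCast φ]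
    haveI := hφ
    exact map_nonunit φ _ h.1
  · show LinearMap.det ((ρ.ρ σ).baseChange B) - _ ∈ _
    rw [LinearMap.det_baseChange, ← map_natCast φ a]
    show φ _ - φ _ ∈ _
    rw [← map_sub]
    exact map_mem_span_natCast (h.2 n σ a ha)

theorem isStrictOrdinaryAt_baseChange {p : ℕ} (h : ρ.IsStrictOrdinaryAt p) :
    (ρ.baseChangeAlong φ hφ).IsStrictOrdinaryAt p := by
  letI : Algebra A B := φ.toAlgebra
  refine ⟨by rw [← map_natCast φ]; haveI := hφ; exact map_nonunit φ _ h.1, fun P hP => ?_⟩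
  obtain ⟨L, ⟨b, rfl⟩, -, hI, hD⟩ := h.2 P hP
  let b' : Module.Basis (Fin 2) B (B ⊗[A] ρ.V) := Algebra.TensorProduct.basis B b
  have hb' : b' 0 = (1 : B) ⊗ₜ[A] b 0 := Algebra.TensorProduct.basis_apply ..
  have key : ∀ (σ : Deform.GalQ) (z : A), (∀ v, ρ.ρ σ v - z • v ∈ A ∙ b 0) →
      ∀ w : B ⊗[A] ρ.V, (ρ.ρ σ).baseChange B w - φ z • w ∈ B ∙ b' 0 := by
    intro σ z hz w
    induction w using TensorProduct.induction_on with
    | zero => simp
    | tmul c v =>
      obtain ⟨a, ha⟩ := Submodule.mem_span_singleton.mp (hz v)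
      refine Submodule.mem_span_singleton.mpr ⟨φ a * c, ?_⟩
      rw [hb', LinearMap.baseChange_tmul, TensorProduct.smul_tmul', TensorProduct.smul_tmul',
        smul_eq_mul, smul_eq_mul, mul_one]
      have e1 : ∀ (d : A) (v : ρ.V), (φ d * c) ⊗ₜ[A] v = c ⊗ₜ[A] (d • v) := fun d v => by
        rw [TensorProduct.tmul_smul, TensorProduct.smul_tmul', Algebra.smul_def]
        rfl
      rw [e1, e1, ← TensorProduct.tmul_sub, ha]
    | add v w hv hw =>
      rw [map_add, smul_add, add_sub_add_comm]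
      exact add_mem hv hw
  have hsc : ∀ (σ : Deform.GalQ) (x : A), (∀ w ∈ A ∙ b 0, ρ.ρ σ w = x • w) →
      ∀ w ∈ B ∙ b' 0, (ρ.ρ σ).baseChange B w = φ x • w := by
    intro σ x hx w hw
    obtain ⟨c, rfl⟩ := Submodule.mem_span_singleton.mp hw
    rw [hb', map_smul, LinearMap.baseChange_tmul, hx _ (Submodule.mem_span_singleton_self _),
      TensorProduct.tmul_smul, algebra_compatible_smul B x, smul_comm c]
    rfl
  refine ⟨B ∙ b' 0, ⟨b', rfl⟩, fun σ hσ v hv => ?_, fun σ hσ v => ?_, fun σ hσ => ?_⟩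
  · obtain ⟨x, z, hx, -, -⟩ := hD σ hσ
    have hmem : ∀ w ∈ B ∙ b' 0, (ρ.ρ σ).baseChange B w ∈ B ∙ b' 0 := fun w hw => by
      rw [hsc σ x hx w hw]
      exact Submodule.smul_mem _ _ hw
    exact hmem v hv
  · have := key σ 1 (fun u => by rw [one_smul]; exact hI σ hσ u) v
    rwa [map_one, one_smul] at this
  · obtain ⟨x, z, hx, hz, hc⟩ := hD σ hσ
    refine ⟨φ x, φ z, hsc σ x hx, key σ z hz, fun n a ha => ?_⟩
    rw [← map_natCast φ a, ← map_mul, ← map_sub]
    exact map_mem_span_natCast (hc n a ha)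

/-- Flatness passes to quotients. -/
theorem isFlatAt_baseChange {p : ℕ} (hsurj : Function.Surjective φ) (h : ρ.IsFlatAt p) :
    (ρ.baseChangeAlong φ hφ).IsFlatAt p := by
  letI : Algebra A B := φ.toAlgebra
  haveI := hφ
  haveI := h.1
  refine ⟨Finite.of_surjective (ResidueField.map φ) fun y => ?_, fun I hI => ?_⟩
  · obtain ⟨b, rfl⟩ := residue_surjective y
    obtain ⟨a, rfl⟩ := hsurj b
    exact ⟨residue A a, ResidueField.map_residue φ a⟩
  set I' := I.comap φ with hI'
  haveI : Finite (A ⧸ I') :=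
    Finite.of_injective (Ideal.quotientMap I φ le_rfl) Ideal.quotientMap_injective
  let b := Module.finBasisOfFinrankEq A ρ.V ρ.finrank_eq
  let b' : Module.Basis (Fin 2) B (B ⊗[A] ρ.V) := Algebra.TensorProduct.basis B b
  let S := I' • (⊤ : Submodule A ρ.V)
  let S' := I • (⊤ : Submodule B (B ⊗[A] ρ.V))
  let f : ρ.V →+ (B ⊗[A] ρ.V) ⧸ S' :=
    S'.mkQ.toAddMonoidHom.comp ((TensorProduct.mk A B ρ.V) 1).toAddMonoidHom
  have hf0 : ∀ v, f v = 0 → v ∈ S := by
    intro v hv
    have hv' : (1 : B) ⊗ₜ[A] v ∈ S' := (Submodule.Quotient.mk_eq_zero S').mp hv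
    rw [← b.sum_repr v]
    refine Submodule.sum_mem _ fun i _ => Submodule.smul_mem_smul ?_ Submodule.mem_top
    rw [hI', Ideal.mem_comap]
    have e : b'.repr ((1 : B) ⊗ₜ[A] v) i = φ (b.repr v i) := by
      rw [Algebra.TensorProduct.basis_repr_tmul, one_smul]
      rfl
    rw [← e]
    refine Submodule.smul_induction_on hv' (fun c hc w _ => ?_) fun x y hx hy => ?_
    · rw [map_smul, Finsupp.smul_apply, smul_eq_mul]
      exact Ideal.mul_mem_right _ _ hc
    · rw [map_add, Finsupp.add_apply]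
      exact add_mem hx hy
  have hfS : S.toAddSubgroup ≤ f.ker := by
    intro v hv
    refine Submodule.smul_induction_on (Submodule.mem_toAddSubgroup _ |>.mp hv) (fun a ha w _ => ?_)
      fun x y hx hy => add_mem hx hy
    refine (Submodule.Quotient.mk_eq_zero S').mpr ?_
    show (1 : B) ⊗ₜ[A] (a • w) ∈ S'
    rw [TensorProduct.tmul_smul, algebra_compatible_smul B a]
    exact Submodule.smul_mem_smul ha Submodule.mem_top
  let g : ρ.V ⧸ S →+ (B ⊗[A] ρ.V) ⧸ S' := QuotientAddGroup.lift _ f hfS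
  have hg : Function.Bijective g := by
    constructor
    · rw [injective_iff_map_eq_zero]
      intro v hv
      obtain ⟨v, rfl⟩ := Submodule.Quotient.mk_surjective _ v
      exact (Submodule.Quotient.mk_eq_zero S).mpr (hf0 v hv)
    · intro y
      obtain ⟨y, rfl⟩ := Submodule.Quotient.mk_surjective _ y
      suffices ∃ v, (1 : B) ⊗ₜ[A] v = y by
        obtain ⟨v, rfl⟩ := this
        exact ⟨Submodule.Quotient.mk v, rfl⟩
      induction y using TensorProduct.induction_on with
      | zero => exact ⟨0, TensorProduct.tmul_zero _ _⟩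
      | tmul c v =>
        obtain ⟨a, rfl⟩ := hsurj c
        refine ⟨a • v, ?_⟩
        rw [TensorProduct.tmul_smul, TensorProduct.smul_tmul', Algebra.smul_def, mul_one]
        rfl
      | add x y hx hy =>
        obtain ⟨v, rfl⟩ := hx
        obtain ⟨w, rfl⟩ := hy
        exact ⟨v + w, TensorProduct.tmul_add _ _ _⟩
  obtain ⟨H, i₁, i₂, hfin, hflat, hcoc, e, headd, hesmul⟩ := h.2 I' ‹_›
  refine ⟨H, i₁, i₂, hfin, hflat, hcoc, e.trans (Equiv.ofBijective g hg), fun x y => ?_,
    fun σ x y hxy => ?_⟩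
  · show g (e (x * y)) = g (e x) + g (e y)
    rw [headd, map_add]
  · show g (e y) = (ρ.baseChangeAlong φ hφ).levelAction I σ (g (e x))
    rw [hesmul σ x y hxy]
    obtain ⟨v, hv⟩ := Submodule.Quotient.mk_surjective _ (e x)
    rw [← hv, GaloisRepAdic.levelAction, GaloisRepAdic.levelAction, Submodule.mapQ_apply]
    show S'.mkQ ((1 : B) ⊗ₜ[A] ρ.ρ σ v) =
      Submodule.mapQ S' S' ((ρ.ρ σ).baseChange B) _ (S'.mkQ ((1 : B) ⊗ₜ[A] v))
    rw [Submodule.mkQ_apply, Submodule.mkQ_apply, Submodule.mapQ_apply, LinearMap.baseChange_tmul]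

end Fermat.Agent.TW56
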