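/-
Taylor-Wiles generators: a universal deformation has no tangent vector with coboundary cocycle.
-/
import Fermat.Prelude.Def_GaloisRep_DeformationRingData
import Fermat.Prelude.Thm_IsLocalRing_isAdicComplete_of_module_finite
import Fermat.Agent.Deform.Lifts
import Fermat.Agent.LL.Gen.Deriv

set_option autoImplicit false
set_option linter.style.haveILetI false

noncomputable section

open IsLocalRing TrivSqZeroExt
open Fermat.Agent.Galois (GQ)
open Fermat.Agent.Deform (Mat2 mapHom HasMatrix)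

namespace Fermat.Agent.TW56

variable {O T : Type} [CommRing O] [CommRing T] [Algebra O T] {k : Type} [Field k]

/-- The derivations along a map to a field which vanish on the base. -/
def tanGroup (O : Type) [CommRing O] [Algebra O T] (π : T →+* k) : AddSubgroup (T →+ k) where
  carrier := {D | (∀ a b, D (a * b) = π a * D b + D a * π b) ∧ ∀ o : O, D (algebraMap O T o) = 0}
  zero_mem' := ⟨fun a b => by simp, fun o => rfl⟩
  add_mem' := fun {D D'} hD hD' =>
    ⟨fun a b => by simp only [AddMonoidHom.add_apply, hD.1 a b, hD'.1 a b]; ring,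
      fun o => by simp only [AddMonoidHom.add_apply, hD.2 o, hD'.2 o, add_zero]⟩
  neg_mem' := fun {D} hD =>
    ⟨fun a b => by simp only [AddMonoidHom.neg_apply, hD.1 a b]; ring,
      fun o => by simp only [AddMonoidHom.neg_apply, hD.2 o, neg_zero]⟩

variable {π : T →+* k}

/-- The derivation. -/
def toTan (D : tanGroup O π) : LL.Tan π := ⟨D.1, D.2.1⟩

theorem toTan_D (D : tanGroup O π) : (toTan D).D = D.1 := rfl

theorem exists_eq_one (hsurj : ∀ x : k, ∃ o : O, π (algebraMap O T o) = x) {D : tanGroup O π}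
    (hD : D ≠ 0) : ∃ t, π t = 0 ∧ D.1 t = 1 := by
  obtain ⟨t, ht⟩ : ∃ t, D.1 t ≠ 0 := by
    by_contra h
    push Not at h
    exact hD (Subtype.ext (AddMonoidHom.ext h))
  obtain ⟨o, ho⟩ := hsurj (π t)
  obtain ⟨o', ho'⟩ := hsurj (D.1 t)⁻¹
  refine ⟨algebraMap O T o' * (t - algebraMap O T o), ?_, ?_⟩
  · rw [map_mul, map_sub, ho, sub_self, mul_zero]
  · rw [D.2.1, D.2.2, map_sub, D.2.2, sub_zero, ho', zero_mul, add_zero, inv_mul_cancel₀ ht]

variable {𝒪 : Type} [CommRing 𝒪] [IsDomain 𝒪] [IsDiscreteValuationRing 𝒪]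
  [IsAdicComplete (maximalIdeal 𝒪) 𝒪] [Finite (ResidueField 𝒪)]

local notation "κ" => ResidueField 𝒪

/-- **Rigidity of the universal deformation.** -/
theorem eq_zero_of_coboundary {ρbar : ResidualGaloisRep κ}
    {𝒟 : ∀ ⦃A : Type⦄ [CommRing A] [IsLocalRing A] [Algebra 𝒪 A], GaloisRepAdic A → Prop}
    (DQ : GaloisRep.DeformationRingData 𝒪 ρbar 𝒟)
    (hbc : letI := Deform.dualAlgebra 𝒪
      ∀ (φ : DQ.R →+* DualNumber κ) (hφ : IsLocalHom φ), Function.Surjective φ →
        𝒟 (DQ.ρ.baseChangeAlong φ hφ))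
    {π : DQ.R →+* κ} (hπO : ∀ o, π (algebraMap 𝒪 DQ.R o) = residue 𝒪 o)
    (hπ0 : ∀ {t}, π t = 0 ↔ t ∈ maximalIdeal DQ.R)
    {r : GQ →* Mat2 DQ.R} (hr : HasMatrix DQ.ρ r)
    {R : GQ →* Mat2 κ} (hbar : Deform.RHasMatrix ρbar R)
    (hR : ∀ σ, (r σ).map π = R σ) (D : tanGroup 𝒪 π) {m : Mat2 κ}
    (hm : ∀ σ, (toTan D).cocycle r R σ = R σ * m * R σ⁻¹ - m) : D = 0 := by
  by_contra hne
  letI : Algebra 𝒪 (DualNumber κ) := Deform.dualAlgebra 𝒪
  haveI : Finite (DualNumber κ) := inferInstanceAs (Finite (κ × κ))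
  haveI : Module.Finite 𝒪 (DualNumber κ) := Module.Finite.of_finite
  haveI hloc : IsLocalHom (algebraMap 𝒪 (DualNumber κ)) :=
    Deform.isLocalHom_algebraMap_of_resMap (Deform.dualResMap 𝒪)
  haveI : IsAdicComplete (maximalIdeal (DualNumber κ)) (DualNumber κ) :=
    IsLocalRing.isAdicComplete_of_module_finite (𝒪 := 𝒪)
  have hres := Deform.residue_surjective_of_resMap (Deform.dualResMap 𝒪)
  -- the two homomorphisms
  let mk : (DQ.R →+ κ) → (DQ.R → DualNumber κ) := fun F a => inl (π a) + inr (F a)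
  let hom : tanGroup 𝒪 π → (DQ.R →ₐ[𝒪] DualNumber κ) := fun F =>
    { toFun := mk F.1
      map_one' := by ext <;> simp [mk, (toTan F).D_one, ← toTan_D]
      map_mul' := fun a b => by ext <;> simp [mk, F.2.1 a b, mul_comm]
      map_zero' := by ext <;> simp [mk]
      map_add' := fun a b => by ext <;> simp [mk]
      commutes' := fun c => by
        show _ = algebraMap κ (DualNumber κ) (algebraMap 𝒪 κ c)
        ext <;> simp [mk, hπO, F.2.2 c, TrivSqZeroExt.algebraMap_eq_inl] }
  have hlh : ∀ F, IsLocalHom (hom F : DQ.R →+* DualNumber κ) := fun F => ⟨fun a ha => by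
    by_contra h
    have h0 : π a = 0 := hπ0.mpr ((mem_maximalIdeal a).mpr h)
    have := (ha.map (Deform.dualResMap 𝒪)).ne_zero
    exact this (by simpa [hom, mk, Deform.dualResMap] using h0)⟩
  obtain ⟨t, ht0, ht1⟩ := exists_eq_one (fun x => by
    obtain ⟨o, rfl⟩ := residue_surjective x; exact ⟨o, hπO o⟩) hne
  have hsurj : Function.Surjective (hom D : DQ.R →+* DualNumber κ) := fun y => by
    obtain ⟨o, ho⟩ := residue_surjective (TrivSqZeroExt.fst y)
    obtain ⟨o', ho'⟩ := residue_surjective (TrivSqZeroExt.snd y)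
    refine ⟨algebraMap 𝒪 DQ.R o + algebraMap 𝒪 DQ.R o' * t, ?_⟩
    show mk D.1 _ = y
    ext <;> simp [mk, hπO, ht0, ht1, D.2.1, D.2.2, ho, ho']
  set ρA := DQ.ρ.baseChangeAlong (hom D : DQ.R →+* DualNumber κ) (hlh D) with hρA
  have hA : HasMatrix ρA ((mapHom (hom D : DQ.R →+* DualNumber κ)).comp r) :=
    hr.baseChangeAlong _ (hlh D)
  have hr0 : HasMatrix (DQ.ρ.baseChangeAlong (hom 0 : DQ.R →+* DualNumber κ) (hlh 0))
      ((mapHom (hom 0 : DQ.R →+* DualNumber κ)).comp r) :=
    hr.baseChangeAlong _ (hlh 0)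
  have hresA : ρA.residual.IsEquiv (ρbar.baseChangeAlong
      (ResidueField.map (algebraMap 𝒪 (DualNumber κ)))) := by
    refine (HasMatrix.residual hA).isEquiv ?_
    convert hbar.baseChangeAlong (ResidueField.map (algebraMap 𝒪 (DualNumber κ))) using 1
    refine MonoidHom.ext fun σ => Matrix.ext fun i j => ?_
    have e : π (r σ i j) = R σ i j := congrFun (congrFun (hR σ) i) j
    obtain ⟨o, ho⟩ := residue_surjective (R σ i j)
    show residue _ (hom D (r σ i j)) = ResidueField.map (algebraMap 𝒪 (DualNumber κ)) (R σ i j)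
    rw [← ho, ResidueField.map_residue, ← sub_eq_zero, ← map_sub, residue_eq_zero_iff,
      Deform.mem_maximal_iff_resMap (Deform.dualResMap 𝒪), map_sub, sub_eq_zero]
    show TrivSqZeroExt.fst (mk D.1 (r σ i j)) = TrivSqZeroExt.fst
      (algebraMap κ (DualNumber κ) (algebraMap 𝒪 κ o))
    simp [mk, e, ← ho, TrivSqZeroExt.algebraMap_eq_inl]
  obtain ⟨φ, -, huniq⟩ := DQ.universal (DualNumber κ) hres ρA (hbc _ (hlh D) hsurj) hresA
  have h1 := huniq (hom D) ⟨hlh D, ⟨GaloisRepAdic.Equiv.refl _⟩⟩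
  have hconj : HasMatrix ρA ((mapHom (hom 0 : DQ.R →+* DualNumber κ)).comp r) := by
    let Un : Mat2 (DualNumber κ) := m.map fun x => (inr x : DualNumber κ)
    have hUn : Un * Un = 0 := by
      ext i j <;> simp [Un, Matrix.mul_apply]
    let U : (Mat2 (DualNumber κ))ˣ :=
      ⟨1 - Un, 1 + Un, by rw [sub_mul, one_mul, mul_add, mul_one, hUn]; abel,
        by rw [add_mul, one_mul, mul_sub, mul_one, hUn]; abel⟩
    refine hA.conj U fun σ => ?_
    have hc : (r σ).map D.1 = R σ * m - m * R σ := by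
      have := congrArg (· * R σ) (hm σ)
      simp only [LL.Tan.cocycle_mul_apply, sub_mul, mul_assoc, ← map_mul, inv_mul_cancel, map_one,
        mul_one, toTan_D] at this
      exact this
    have e : ∀ i j, π (r σ i j) = R σ i j := fun i j => congrFun (congrFun (hR σ) i) j
    have hc' : ∀ i j, D.1 (r σ i j) = (R σ * m - m * R σ) i j :=
      fun i j => congrFun (congrFun hc i) j
    show (r σ).map (hom D : DQ.R →+* DualNumber κ) * (1 - Un) =
      (1 - Un) * (r σ).map (hom 0 : DQ.R →+* DualNumber κ)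
    refine Matrix.ext fun i j => TrivSqZeroExt.ext ?_ ?_
    · fin_cases i <;> fin_cases j <;>
        simp [Un, mk, hom, Matrix.mul_apply, Fin.sum_univ_two, Matrix.one_apply, e]
    · fin_cases i <;> fin_cases j <;>
        simp [Un, mk, hom, Matrix.mul_apply, Fin.sum_univ_two, Matrix.one_apply, e, hc'] <;> ring
  have h2 := huniq (hom 0) ⟨hlh 0, hr0.isEquiv hconj⟩
  have h3 := congrArg (fun f : DQ.R →ₐ[𝒪] DualNumber κ => TrivSqZeroExt.snd (f t))
    (h1.trans h2.symm)
  exact one_ne_zero (ht1.symm.trans (by simpa [hom, mk] using h3))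

end Fermat.Agent.TW56
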