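/-
Taylor-Wiles generators: a bound on the derivations bounds the number of generators.
-/
import Fermat.Agent.GD.TW56.Rigid
import Fermat.Agent.LL.Algebra.Eval

set_option autoImplicit false
set_option linter.style.haveILetI false

noncomputable section

open IsLocalRing

namespace Fermat.Agent.TW56

variable {O : Type} [CommRing O] [IsDomain O] [IsDiscreteValuationRing O]
  [IsAdicComplete (maximalIdeal O) O] [Finite (ResidueField O)]
variable {T : Type} [CommRing T] [IsLocalRing T] [IsNoetherianRing T]
  [IsAdicComplete (maximalIdeal T) T] [Algebra O T] [IsLocalHom (algebraMap O T)]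

/-- At most as many generators as the dimension of the group of derivations. -/
theorem exists_surjective_of_card (πa : T →ₐ[O] ResidueField O) {g₀ : ℕ}
    [Finite (tanGroup O (πa : T →+* ResidueField O))]
    (hcard : Nat.card (tanGroup O (πa : T →+* ResidueField O)) ≤
      Nat.card (ResidueField O) ^ g₀) :
    ∃ γ : MvPowerSeries (Fin g₀) O →ₐ[O] T, Function.Surjective γ := by
  classical
  obtain ⟨ϖ, hϖ⟩ := IsDiscreteValuationRing.exists_irreducible O
  set π : T →+* ResidueField O := (πa : T →+* ResidueField O) with hπdef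
  have hπO : ∀ o, π (algebraMap O T o) = residue O o := fun o => πa.commutes o
  have hπ0 : ∀ {t}, π t = 0 ↔ t ∈ maximalIdeal T := fun {t} =>
    (Deform.mem_maximal_iff_resMap πa).symm
  set J : Ideal T := Ideal.span {algebraMap O T ϖ} ⊔ maximalIdeal T ^ 2 with hJdef
  have hϖm : algebraMap O T ϖ ∈ maximalIdeal T :=
    (mem_maximalIdeal _).mpr fun hu => hϖ.not_isUnit (isUnit_of_map_unit (algebraMap O T) ϖ hu)
  have hJm : J ≤ maximalIdeal T := sup_le
    ((Ideal.span_singleton_le_iff_mem _).mpr hϖm) (Ideal.pow_le_self two_ne_zero)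
  have hOJ : ∀ o ∈ maximalIdeal O, Ideal.Quotient.mk J (algebraMap O T o) = 0 := by
    intro o ho
    rw [hϖ.maximalIdeal_eq, Ideal.mem_span_singleton'] at ho
    obtain ⟨c, rfl⟩ := ho
    rw [Ideal.Quotient.eq_zero_iff_mem, map_mul]
    exact Ideal.mul_mem_left _ _ (Ideal.mem_sup_left (Ideal.mem_span_singleton_self _))
  let ι : ResidueField O →+* T ⧸ J :=
    Ideal.Quotient.lift (maximalIdeal O) ((Ideal.Quotient.mk J).comp (algebraMap O T)) hOJ
  letI : Algebra (ResidueField O) (T ⧸ J) := ι.toAlgebra
  let πb : T ⧸ J →+* ResidueField O := Ideal.Quotient.lift J π fun t ht => hπ0.mpr (hJm ht)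
  have hπbι : ∀ c : ResidueField O, πb (algebraMap (ResidueField O) (T ⧸ J) c) = c := fun c => by
    obtain ⟨o, rfl⟩ := residue_surjective c
    exact hπO o
  let πL : (T ⧸ J) →ₗ[ResidueField O] ResidueField O :=
    { toFun := πb
      map_add' := πb.map_add
      map_smul' := fun c x => by
        rw [RingHom.id_apply, Algebra.smul_def, map_mul, hπbι, smul_eq_mul] }
  let δ : (T ⧸ J) →ₗ[ResidueField O] (T ⧸ J) :=
    LinearMap.id - (Algebra.linearMap (ResidueField O) _).comp πL
  have hδ : ∀ x, δ x = x - algebraMap (ResidueField O) _ (πb x) := fun x => rfl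
  have hπδ : ∀ x, πb (δ x) = 0 := fun x => by rw [hδ, map_sub, hπbι, sub_self]
  have hδO : ∀ o, δ (Ideal.Quotient.mk J (algebraMap O T o)) = 0 := fun o => by
    rw [hδ]
    show _ - algebraMap (ResidueField O) _ (π (algebraMap O T o)) = _
    rw [hπO]
    exact sub_self _
  have hδleib : ∀ x y, δ (x * y) = πb x • δ y + πb y • δ x := by
    intro x y
    obtain ⟨t, ht⟩ := Ideal.Quotient.mk_surjective (δ x)
    obtain ⟨t', ht'⟩ := Ideal.Quotient.mk_surjective (δ y)
    have e : δ x * δ y = 0 := by
      rw [← ht, ← ht', ← map_mul, Ideal.Quotient.eq_zero_iff_mem]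
      refine Ideal.mem_sup_right ?_
      rw [pow_two]
      exact Ideal.mul_mem_mul (hπ0.mp (by have := hπδ x; rw [← ht] at this; exact this))
        (hπ0.mp (by have := hπδ y; rw [← ht'] at this; exact this))
    simp only [hδ] at e
    simp only [hδ, Algebra.smul_def, map_mul]
    linear_combination e
  set W := LinearMap.range δ
  -- the derivations of the functionals
  let Φ : (W →ₗ[ResidueField O] ResidueField O) → tanGroup O π := fun f =>
    ⟨(f.comp δ.rangeRestrict).toAddMonoidHom.comp (Ideal.Quotient.mk J).toAddMonoidHom,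
      ⟨fun a b => by
        show f (δ.rangeRestrict (Ideal.Quotient.mk J (a * b))) =
          π a * f (δ.rangeRestrict (Ideal.Quotient.mk J b)) +
            f (δ.rangeRestrict (Ideal.Quotient.mk J a)) * π b
        rw [show δ.rangeRestrict (Ideal.Quotient.mk J (a * b)) =
          π a • δ.rangeRestrict (Ideal.Quotient.mk J b) +
            π b • δ.rangeRestrict (Ideal.Quotient.mk J a) from Subtype.ext (by
              show δ (Ideal.Quotient.mk J (a * b)) = _
              rw [map_mul, hδleib]
              rfl), map_add, map_smul, map_smul, smul_eq_mul, smul_eq_mul,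
          mul_comm (π b)],
      fun o => by
        show f (δ.rangeRestrict (Ideal.Quotient.mk J (algebraMap O T o))) = 0
        rw [show δ.rangeRestrict (Ideal.Quotient.mk J (algebraMap O T o)) = 0 from
          Subtype.ext (hδO o), map_zero]⟩⟩
  have hΦ : Function.Injective Φ := fun f g h => LinearMap.ext fun w => by
    obtain ⟨x, hx⟩ := LinearMap.surjective_rangeRestrict δ w
    obtain ⟨t, ht⟩ := Ideal.Quotient.mk_surjective x
    have h2 : f (δ.rangeRestrict (Ideal.Quotient.mk J t)) =
        g (δ.rangeRestrict (Ideal.Quotient.mk J t)) :=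
      DFunLike.congr_fun (congrArg Subtype.val h) t
    rwa [ht, hx] at h2
  haveI : Finite (W →ₗ[ResidueField O] ResidueField O) := Finite.of_injective Φ hΦ
  haveI : Module.Finite (ResidueField O) (Module.Dual (ResidueField O) W) :=
    Module.Finite.of_finite
  haveI : Module.Finite (ResidueField O) W :=
    (Module.finite_dual_iff (ResidueField O)).mp inferInstance
  set d := Module.finrank (ResidueField O) W with hd
  have hd' : d ≤ g₀ := by
    have h1 := (Nat.card_le_card_of_injective Φ hΦ).trans hcard
    rw [Module.natCard_eq_pow_finrank (K := ResidueField O), Module.finrank_linearMap,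
      Module.finrank_self, mul_one] at h1
    exact (Nat.pow_le_pow_iff_right (Finite.one_lt_card)).mp h1
  let w : Module.Basis (Fin d) (ResidueField O) W := Module.finBasis _ W
  choose x₀ hx₀ using fun i => Ideal.Quotient.mk_surjective ((w i : W) : T ⧸ J)
  have hx₀m : ∀ i, x₀ i ∈ maximalIdeal T := fun i => by
    obtain ⟨y, hy⟩ := (w i).2
    refine hπ0.mp ?_
    show πb (Ideal.Quotient.mk J (x₀ i)) = 0
    rw [hx₀, ← hy, hπδ]
  let a : Fin g₀ → T := fun i => if hi : (i : ℕ) < d then x₀ ⟨i, hi⟩ else 0
  have ha : ∀ i, a i ∈ maximalIdeal T := fun i => by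
    simp only [a]; split_ifs with hi
    · exact hx₀m _
    · exact zero_mem _
  set I := Ideal.span ({algebraMap O T ϖ} ∪ Set.range a) with hI
  have hIm : maximalIdeal T ≤ I := by
    refine Submodule.le_of_le_smul_of_le_jacobson_bot (IsNoetherian.noetherian _)
      (IsLocalRing.maximalIdeal_le_jacobson ⊥) (I := maximalIdeal T) fun t ht => ?_
    rw [smul_eq_mul]
    have hJI : J ≤ I ⊔ maximalIdeal T * maximalIdeal T := by
      rw [hJdef, pow_two]
      exact sup_le_sup_right (Ideal.span_mono Set.subset_union_left) _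
    have e0 : δ (Ideal.Quotient.mk J t) = Ideal.Quotient.mk J t := by
      rw [hδ]
      show _ - algebraMap (ResidueField O) _ (π t) = _
      rw [hπ0.mpr ht, map_zero, sub_zero]
    choose o ho using fun i => residue_surjective (R := O)
      (w.repr ⟨δ (Ideal.Quotient.mk J t), _, rfl⟩ i)
    have hmem : t - ∑ i, algebraMap O T (o i) * x₀ i ∈ J := by
      rw [← Ideal.Quotient.eq_zero_iff_mem, map_sub, sub_eq_zero, map_sum]
      have e1 := congrArg (fun v : W => (v : T ⧸ J))
        (w.sum_repr ⟨δ (Ideal.Quotient.mk J t), _, rfl⟩).symm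
      simp only [AddSubmonoidClass.coe_finsetSum, SetLike.val_smul] at e1
      rw [← e0, e1]
      refine Finset.sum_congr rfl fun i _ => ?_
      rw [map_mul, hx₀, ← ho, Algebra.smul_def]
      rfl
    have hsum : ∑ i, algebraMap O T (o i) * x₀ i ∈ I := Ideal.sum_mem _ fun i _ =>
      Ideal.mul_mem_left _ _ (Ideal.subset_span (Set.mem_union_right _
        ⟨⟨i, i.2.trans_le hd'⟩, dif_pos i.2⟩))
    rw [← sub_add_cancel t (∑ i, algebraMap O T (o i) * x₀ i)]
    exact add_mem (hJI hmem) (Ideal.mem_sup_left hsum)
  obtain ⟨γ, hγ⟩ := LL.exists_eval (O := O) a ha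
  refine ⟨γ, ?_⟩
  have hmap : (maximalIdeal (MvPowerSeries (Fin g₀) O)).map (γ : _ →+* T) = maximalIdeal T := by
    refine le_antisymm ?_ (hIm.trans ?_)
    · refine Ideal.map_le_iff_le_comap.mpr fun f hf => ?_
      rw [Ideal.mem_comap, mem_maximalIdeal, mem_nonunits_iff]
      rw [mem_maximalIdeal, mem_nonunits_iff, MvPowerSeries.isUnit_iff_constantCoeff] at hf
      intro hu
      have hsub : γ f - algebraMap O T (MvPowerSeries.constantCoeff f) ∈ maximalIdeal T := by
        have hmem : f - MvPowerSeries.C (MvPowerSeries.constantCoeff f) ∈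
            Ideal.span (Set.range fun i => (MvPowerSeries.X i : MvPowerSeries (Fin g₀) O)) := by
          rw [← Patching.ofList_X, Patching.mem_ofList_X_iff]
          simp
        have hle : Ideal.span (Set.range fun i => (MvPowerSeries.X i : MvPowerSeries (Fin g₀) O)) ≤
            (maximalIdeal T).comap γ := by
          rw [Ideal.span_le]
          rintro _ ⟨i, rfl⟩
          rw [SetLike.mem_coe, Ideal.mem_comap, hγ]
          exact ha i
        have := hle hmem
        rwa [Ideal.mem_comap, map_sub, MvPowerSeries.c_eq_algebraMap, AlgHom.commutes] at this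
      refine hf (isUnit_of_map_unit (algebraMap O T) _ ?_)
      refine notMem_maximalIdeal.mp fun h => notMem_maximalIdeal.mpr hu ?_
      have h2 := add_mem hsub h
      rwa [sub_add_cancel] at h2
    · rw [hI, Ideal.span_le]
      rintro _ (rfl | ⟨i, rfl⟩)
      · rw [← γ.commutes, ← MvPowerSeries.c_eq_algebraMap]
        refine Ideal.mem_map_of_mem _ ?_
        rw [mem_maximalIdeal, mem_nonunits_iff, MvPowerSeries.isUnit_iff_constantCoeff,
          MvPowerSeries.constantCoeff_C]
        exact hϖ.not_isUnit
      · rw [← hγ]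
        refine Ideal.mem_map_of_mem _ ?_
        rw [mem_maximalIdeal, mem_nonunits_iff, MvPowerSeries.isUnit_iff_constantCoeff,
          MvPowerSeries.constantCoeff_X]
        exact not_isUnit_zero
  haveI : IsHausdorff ((maximalIdeal (MvPowerSeries (Fin g₀) O)).map (γ : _ →+* T)) T := by
    rw [hmap]; infer_instance
  refine surjective_of_mk_map_comp_surjective
    (I := maximalIdeal (MvPowerSeries (Fin g₀) O)) (γ : _ →+* T) fun y => ?_
  obtain ⟨t, rfl⟩ := Ideal.Quotient.mk_surjective y
  obtain ⟨o, ho⟩ := residue_surjective (π t)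
  refine ⟨MvPowerSeries.C o, ?_⟩
  rw [RingHom.comp_apply, Ideal.Quotient.eq, hmap]
  show γ (MvPowerSeries.C o) - t ∈ _
  rw [MvPowerSeries.c_eq_algebraMap, γ.commutes, ← hπ0, map_sub, hπO, ho, sub_self]

end Fermat.Agent.TW56
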