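/-
Taylor-Wiles generators: the tangent vectors of a deformation ring give Selmer classes.
-/
import Fermat.Agent.GD.GW.AdLocal
import Fermat.Agent.GD.TW56.Tangent
import Fermat.Prelude.Def_GaloisRep_LocalConditions

set_option autoImplicit false
set_option linter.style.haveILetI false

noncomputable section

open IsLocalRing
open Fermat.Agent.Galois (GQ)
open Fermat.Agent.Deform (Mat2 mapHom HasMatrix)

namespace Fermat.Agent.TW56

section

variable {M : Type} [AddCommGroup M] [DistribMulAction GQ M]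

local instance instLTClasses (T : Finset Nat.Primes) : DistribMulAction (GD.LT T).G M :=
  inferInstanceAs (DistribMulAction GQ M)

local instance instLDClasses (v : GD.Place) : DistribMulAction (GD.LD v).G M :=
  inferInstanceAs (DistribMulAction (GD.decomp v) M)

variable {k : Type} [Field k]

open Classical in
/-- The conditions: `Lp` at `p`, unipotent at the other primes of `S`, nothing at `Q`. -/
def tw56Cond (p : ℕ) (R : GQ →* Mat2 k) (Smin : Finset ℕ) (Q : Finset Nat.Primes)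
    (Lp : ∀ q : Nat.Primes, AddSubgroup ((GD.LD (some q)).Z1 (GD.Ad0 R))) :
    ∀ v : GD.Place, AddSubgroup ((GD.LD v).Z1 (GD.Ad0 R))
  | none => ⊤
  | some q =>
    if q ∈ Q then ⊤
    else if (q : ℕ) = p then Lp q
    else if (q : ℕ) ∈ Smin then GD.unipCond R q
    else GD.unramCond (GD.Ad0 R) q

variable {O : Type} [CommRing O] {T : Type} [CommRing T] [Algebra O T] {π : T →+* k}
  {r : GQ →* Mat2 T} {R : GQ →* Mat2 k}

/-- The cocycle of a derivation in the adjoint module. -/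
def tanClass (hR : ∀ σ, (r σ).map π = R σ) (D : tanGroup O π) (hdet : ∀ σ, D.1 (r σ).det = 0)
    (σ : GQ) : GD.Ad0 R :=
  (⟨(toTan D).cocycle r R σ, GD.mem_sl2.mpr ((toTan D).trace_cocycle hR (hdet σ))⟩ : GD.sl2 k)

theorem mat_tanClass (hR : ∀ σ, (r σ).map π = R σ) (D : tanGroup O π)
    (hdet : ∀ σ, D.1 (r σ).det = 0) (σ : GQ) :
    GD.Ad0.mat (tanClass hR D hdet σ) = (toTan D).cocycle r R σ := rfl

theorem cocycle_add (D D' : tanGroup O π) (σ : GQ) :
    (toTan (D + D')).cocycle r R σ = (toTan D).cocycle r R σ + (toTan D').cocycle r R σ := by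
  rw [LL.Tan.cocycle, LL.Tan.cocycle, LL.Tan.cocycle, ← add_mul]
  rfl

variable {𝒪 : Type} [CommRing 𝒪] [IsDomain 𝒪] [IsDiscreteValuationRing 𝒪]
  [IsAdicComplete (maximalIdeal 𝒪) 𝒪] [Finite (ResidueField 𝒪)]

/-- The derivative of the determinant of a deformation with cyclotomic determinant is zero. -/
theorem deriv_det_eq_zero {p : ℕ} [Fact p.Prime] [CharP k p] [IsLocalRing T] {ρ : GaloisRepAdic T}
    (hdet : ρ.DetIsCyclotomic p) (hr : HasMatrix ρ r) (D : tanGroup O π) (σ : GQ) :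
    D.1 (r σ).det = 0 := by
  obtain ⟨bas, hbas⟩ := hr
  obtain ⟨n, hn, -⟩ := GD.exists_cyclo_exponent p σ
  have h := hdet.2 1 σ n (by simpa using hn)
  rw [pow_one, Ideal.mem_span_singleton'] at h
  obtain ⟨c, hc⟩ := h
  rw [← hbas σ, LinearMap.det_toMatrix, sub_eq_iff_eq_add.mp hc.symm, map_add, D.2.1,
    map_natCast π, CharP.cast_eq_zero k p, ← toTan_D, (toTan D).map_natCast, (toTan D).map_natCast,
    mul_zero, mul_zero, add_zero, add_zero]

/-- The residual matrices are unipotent wherever the deformation is. -/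
theorem sq_eq_zero_of_unipotent [IsLocalRing T] {ρ : GaloisRepAdic T} (hr : HasMatrix ρ r)
    (hR : ∀ σ, (r σ).map π = R σ) {σ : GQ}
    (h : LinearMap.charpoly (ρ.ρ σ) = (Polynomial.X - 1) ^ 2) : (R σ - 1) * (R σ - 1) = 0 := by
  obtain ⟨bas, hbas⟩ := hr
  rw [← LinearMap.charpoly_toMatrix (ρ.ρ σ) bas, hbas] at h
  have h1 : (R σ).charpoly = (Polynomial.X - 1) ^ 2 := by
    rw [← hR, ← RingHom.mapMatrix_apply, RingHom.mapMatrix_apply, Matrix.charpoly_map, h,
      Polynomial.map_pow, Polynomial.map_sub, Polynomial.map_X, Polynomial.map_one]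
  have h2 := Matrix.aeval_self_charpoly (R σ)
  rw [h1] at h2
  simpa [sq] using h2

theorem deriv_trace_eq_zero [IsLocalRing T] {ρ : GaloisRepAdic T} (hr : HasMatrix ρ r)
    (D : tanGroup O π) {σ : GQ}
    (h : LinearMap.charpoly (ρ.ρ σ) = (Polynomial.X - 1) ^ 2) :
    ((toTan D).cocycle r R σ * R σ).trace = 0 := by
  obtain ⟨bas, hbas⟩ := hr
  rw [← LinearMap.charpoly_toMatrix (ρ.ρ σ) bas, hbas, Matrix.charpoly_fin_two] at h
  have htr : (r σ).trace = ((2 : ℕ) : T) := by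
    have := congrArg (fun P => Polynomial.coeff P 1) h
    simp [sub_sq, Polynomial.coeff_X_pow, Polynomial.coeff_one, Polynomial.coeff_ofNat_mul] at this
    simpa using this
  rw [← LL.Tan.D_trace, htr]
  exact (toTan D).map_natCast 2

/-- Ramification of the residual representation is seen at the chosen place. -/
theorem exists_inertia_ne_one {ρbar : ResidualGaloisRep k} (hbar : Deform.RHasMatrix ρbar R)
    {q : Nat.Primes} (h : ¬ ρbar.IsUnramifiedAt q) :
    ∃ σ ∈ (GD.placeAt q).inertiaSubgroupIn ℚ, R σ ≠ 1 := by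
  by_contra hcon
  push Not at hcon
  refine h fun A hA σ hσ => ?_
  obtain ⟨g, rfl⟩ := Galois.exists_smul_eq_of_liesOverPrime q.2 (GD.placeAt_liesOverPrime q) hA
  obtain ⟨bas, hbas⟩ := hbar
  refine (LinearMap.toMatrix bas bas).injective ?_
  rw [hbas, LinearMap.toMatrix_one]
  rw [show σ = g * (g⁻¹ * σ * g) * g⁻¹ by group, map_mul, map_mul,
    hcon _ (GD.mem_inertia_conj hσ), mul_one, ← map_mul, mul_inv_cancel, map_one]

omit [IsAdicComplete (maximalIdeal 𝒪) 𝒪] in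
/-- **The tangent space maps injectively to the Selmer group.** -/
theorem card_tanGroup_le {p : ℕ} [Fact p.Prime] (hp2 : p ≠ 2) [CharP (ResidueField 𝒪) p]
    {ρbar : ResidualGaloisRep (ResidueField 𝒪)} {R : GQ →* Mat2 (ResidueField 𝒪)}
    (hbar : Deform.RHasMatrix ρbar R) (h : TW.TWHyp p R)
    (Smin : Finset ℕ) (hpSmin : p ∈ Smin)
    (hram : ∀ l ∈ Smin, l ≠ p → ¬ ρbar.IsUnramifiedAt l)
    (T₀ Q : Finset Nat.Primes) (hT₀ : ∀ q : Nat.Primes, (q : ℕ) ∈ Smin → q ∈ T₀)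
    (hQ : Disjoint Q T₀) {N₀ : Subgroup GQ} (hN₀ : (GD.LT T₀).IsLevel N₀)
    (hN₀R : ∀ s ∈ N₀, R s = 1) {g₀ : ℕ}
    (hbound : ∀ (L : ∀ v : GD.Place, AddSubgroup ((GD.LD v).Z1 (GD.Ad0 R))),
      (∀ v, ((GD.LD v).B1 (GD.Ad0 R)).addSubgroupOf ((GD.LD v).Z1 (GD.Ad0 R)) ≤ L v) →
      (∀ q ∈ Q, L (some q) = ⊤) → ∀ d e : Nat.Primes → ℕ,
      (∀ q ∈ T₀, GD.cardClasses (GD.Ad0 R) (some q) (L (some q)) * Nat.card (ResidueField 𝒪) ^ d q ≤
        Nat.card ((GD.LD (some q)).fixed (GD.Ad0 R)) * Nat.card (ResidueField 𝒪) ^ e q) →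
      Finite (GD.selmerClasses (T₀ ∪ Q) (GD.Ad0 R) L) ∧
        Nat.card (GD.selmerClasses (T₀ ∪ Q) (GD.Ad0 R) L) *
            Nat.card (ResidueField 𝒪) ^ (1 + ∑ q ∈ T₀, d q) ≤
          Nat.card (ResidueField 𝒪) ^ (g₀ + ∑ q ∈ T₀, e q))
    {T : Type} [CommRing T] [IsLocalRing T] [Algebra 𝒪 T] {ρ : GaloisRepAdic T}
    {π : T →+* ResidueField 𝒪} {r : GQ →* Mat2 T} (hr : HasMatrix ρ r)
    (hR : ∀ σ, (r σ).map π = R σ) (hρdet : ρ.DetIsCyclotomic p)
    (hρunr : ∀ q : Nat.Primes, (q : ℕ) ∉ Smin → q ∉ Q → ρ.IsUnramifiedAt q)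
    (hρunip : ∀ l ∈ Smin, l.Prime → l ≠ p → ρ.IsUnipotentOnInertiaAt l)
    (hπp : ∀ t : T, t ∈ maximalIdeal T → π t = 0)
    (hrigid : ∀ (D : tanGroup 𝒪 π) (m : Mat2 (ResidueField 𝒪)),
      (∀ σ, (toTan D).cocycle r R σ = R σ * m * R σ⁻¹ - m) → D = 0)
    (Lp : ∀ q : Nat.Primes, AddSubgroup ((GD.LD (some q)).Z1 (GD.Ad0 R)))
    (hLpB : ∀ q : Nat.Primes, (q : ℕ) = p →
      ((GD.LD (some q)).B1 (GD.Ad0 R)).addSubgroupOf ((GD.LD (some q)).Z1 (GD.Ad0 R)) ≤ Lp q)
    (hLpcard : ∀ q : Nat.Primes, (q : ℕ) = p → (GD.LD (some q)).Smooth (GD.Ad0 R) →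
      GD.cardClasses (GD.Ad0 R) (some q) (Lp q) ≤
        Nat.card ((GD.LD (some q)).fixed (GD.Ad0 R)) * Nat.card (ResidueField 𝒪))
    (hLpmem : ∀ (q : Nat.Primes), (q : ℕ) = p → ∀ (D : tanGroup 𝒪 π)
      (x : (GD.LD (some q)).Z1 (GD.Ad0 R)),
      (∀ d : GD.decomp (some q), GD.Ad0.mat (x.1 d) = (toTan D).cocycle r R d) → x ∈ Lp q) :
    Finite (tanGroup 𝒪 π) ∧ Nat.card (tanGroup 𝒪 π) ≤ Nat.card (ResidueField 𝒪) ^ g₀ := by
  classical
  have hp : p.Prime := Fact.out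
  let pP : Nat.Primes := ⟨p, hp⟩
  set TT := T₀ ∪ Q with hTT
  let L := tw56Cond p R Smin Q Lp
  have hunrR : ∀ q : Nat.Primes, (q : ℕ) ∉ Smin → q ∉ Q →
      ∀ A : ValuationSubring (AlgebraicClosure ℚ),
      A.LiesOverPrime (q : ℕ) → ∀ σ ∈ A.inertiaSubgroupIn ℚ, r σ = 1 ∧ R σ = 1 := by
    intro q hq hqQ A hA σ hσ
    have h1 : r σ = 1 := by
      obtain ⟨bas, hbas⟩ := hr
      rw [← hbas σ, hρunr q hq hqQ A hA σ hσ, LinearMap.toMatrix_one]
    exact ⟨h1, by rw [← hR, h1, ← RingHom.mapMatrix_apply, map_one]⟩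
  have htriv : ∀ q : Nat.Primes, (q : ℕ) ∉ Smin → q ∉ Q →
      ∀ σ ∈ (GD.placeAt q).inertiaSubgroupIn ℚ, ∀ x : GD.Ad0 R, σ • x = x := fun q hq hqQ σ hσ x =>
    GD.Ad0.smul_eq_self (hunrR q hq hqQ _ (GD.placeAt_liesOverPrime q) σ hσ).2 x
  have hL : ∀ v, ((GD.LD v).B1 (GD.Ad0 R)).addSubgroupOf ((GD.LD v).Z1 (GD.Ad0 R)) ≤ L v := by
    rintro (_ | q)
    · exact le_top
    · show _ ≤ tw56Cond p R Smin Q Lp (some q)
      simp only [tw56Cond]
      split_ifs with h1 h2 h3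
      · exact le_top
      · exact hLpB q h2
      · exact GD.b1_le_unipCond q
      · exact GD.b1_le_unramCond (htriv q h3 h1)
  have hN₀T : (GD.LT TT).IsLevel N₀ := GD.isLevel_mono Finset.subset_union_left hN₀
  have hN₀M : ∀ s ∈ N₀, ∀ x : GD.Ad0 R, s • x = x := fun s hs x =>
    GD.Ad0.smul_eq_self (hN₀R s hs) x
  have hsm : ∀ v, (GD.LD v).Smooth (GD.Ad0 R) := GD.smooth_local (T := TT) hN₀T hN₀M
  obtain ⟨hfin, hle⟩ := hbound L hL (fun q hq => if_pos hq) (fun _ => 0)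
    (fun q => if (q : ℕ) = p then 1 else 0) fun q hq => by
    have hqQ : q ∉ Q := fun h => Finset.disjoint_left.mp hQ h hq
    show GD.cardClasses (GD.Ad0 R) (some q) (tw56Cond p R Smin Q Lp (some q)) * _ ≤ _
    simp only [tw56Cond, if_neg hqQ]
    by_cases h2 : (q : ℕ) = p
    · simp only [if_pos h2, pow_zero, mul_one, pow_one]
      exact hLpcard q h2 (hsm _)
    simp only [if_neg h2, pow_zero, mul_one]
    by_cases h3 : (q : ℕ) ∈ Smin
    · rw [if_pos h3]
      exact GD.cardClasses_unip_le hp2 h h2 (hsm _)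
        (fun σ hσ => sq_eq_zero_of_unipotent hr hR
          (hρunip q h3 q.2 h2 _ (GD.placeAt_liesOverPrime q) σ hσ))
        (exists_inertia_ne_one hbar (hram q h3 h2))
    · rw [if_neg h3]
      exact GD.cardClasses_unram_le hp2 GD.Ad0.nsmul_eq_zero (hsm _) (htriv q h3 hqQ)
  let x : tanGroup 𝒪 π → GQ → GD.Ad0 R := fun D =>
    tanClass hR D fun σ => deriv_det_eq_zero hρdet hr D σ
  have hxc : ∀ D σ τ, x D (σ * τ) = x D σ + σ • x D τ := fun D σ τ =>
    GD.Ad0.mat_injective ((toTan D).map_mul hR σ τ)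
  have hxT : ∀ D, (GD.LT TT).Const₁ (x D) := fun D => by
    obtain ⟨F, hF, hFc⟩ := Deform.HasMatrix.matCts hr 2
    refine GD.const₁_of_inertia hN₀T hN₀M (hxc D) ⟨F, hF, fun σ hσ => GD.Ad0.mat_injective ?_⟩
      fun q hq A hA σ hσ => GD.Ad0.mat_injective ?_
    · rw [map_zero]
      refine (toTan D).cocycle_eq_zero_of_map r R ?_
      have hσ' := (IntermediateField.mem_fixingSubgroup_iff _ _).mp hσ
      ext u v
      have h1 : D.1 ((r σ - 1) u v) = 0 := by
        have hm := hFc σ hσ' u v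
        rw [pow_two] at hm
        refine Submodule.mul_induction_on hm (fun a ha b hb => ?_) fun a b ha hb => ?_
        · rw [D.2.1, hπp a ha, hπp b hb, zero_mul, mul_zero, add_zero]
        · rw [map_add, ha, hb, add_zero]
      rw [Matrix.sub_apply, map_sub, sub_eq_zero] at h1
      rw [Matrix.map_apply, Matrix.zero_apply, toTan_D, h1]
      rcases eq_or_ne u v with rfl | huv
      · rw [Matrix.one_apply_eq]; exact (toTan D).D_one
      · rw [Matrix.one_apply_ne huv, map_zero]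
    · rw [map_zero]
      exact (toTan D).cocycle_eq_zero_of_eq_one r R (hunrR q
        (fun h => hq (Finset.mem_union_left _ (hT₀ q h)))
        (fun h => hq (Finset.mem_union_right _ h)) A hA σ hσ).1
  let Z : tanGroup 𝒪 π → (GD.LT TT).Z1 (GD.Ad0 R) := fun D => ⟨x D, hxT D, hxc D⟩
  have hZ : ∀ D, Z D ∈ ⨅ v ∈ GD.placesOf TT, (L v).comap (GD.resCocycle TT (GD.Ad0 R) v) := by
    intro D
    refine AddSubgroup.mem_iInf.mpr fun v => AddSubgroup.mem_iInf.mpr fun hv => ?_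
    rcases v with _ | q
    · exact AddSubgroup.mem_top _
    show GD.resCocycle TT (GD.Ad0 R) (some q) (Z D) ∈ tw56Cond p R Smin Q Lp (some q)
    simp only [tw56Cond]
    split_ifs with h1 h2 h3
    · exact AddSubgroup.mem_top _
    · exact hLpmem q h2 D _ fun d => rfl
    · intro d hd
      exact deriv_trace_eq_zero hr D (hρunip q h3 q.2 h2 _ (GD.placeAt_liesOverPrime q) _ hd)
    · intro d hd
      exact GD.Ad0.mat_injective (((toTan D).cocycle_eq_zero_of_eq_one r R (hunrR q h3 h1 _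
        (GD.placeAt_liesOverPrime q) _ hd).1).trans (map_zero _).symm)
  let Φ : tanGroup 𝒪 π → GD.selmerClasses TT (GD.Ad0 R) L := fun D =>
    ⟨_, AddSubgroup.mem_map_of_mem _ (hZ D)⟩
  have hΦ : Function.Injective Φ := by
    intro a b e
    obtain ⟨y, hy⟩ := QuotientAddGroup.eq.mp (congrArg Subtype.val e)
    refine sub_eq_zero.mp (hrigid (a - b) (-GD.Ad0.mat y) fun σ => ?_)
    have h1 : GD.Ad0.mat (σ • y - y) = GD.Ad0.mat (-x a σ + x b σ) :=
      congrArg GD.Ad0.mat (congrFun hy σ)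
    rw [map_sub, GD.Ad0.mat_smul, map_add, map_neg, mat_tanClass, mat_tanClass] at h1
    have h2 := cocycle_add (r := r) (R := R) (a - b) b σ
    rw [sub_add_cancel] at h2
    rw [← sub_eq_zero] at h1
    rw [← sub_eq_zero, mul_neg, neg_mul, ← h1, h2]
    abel
  haveI := hfin
  refine ⟨Finite.of_injective Φ hΦ, (Nat.card_le_card_of_injective Φ hΦ).trans ?_⟩
  have hsum : ∑ q ∈ T₀, (if (q : ℕ) = p then 1 else 0) = 1 :=
    (Finset.sum_eq_single_of_mem pP (hT₀ pP hpSmin)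
      fun q _ hq => if_neg fun e => hq (Subtype.ext e)).trans (if_pos rfl)
  rw [Finset.sum_const_zero, add_zero, pow_one, hsum, pow_succ] at hle
  exact Nat.le_of_mul_le_mul_right hle Nat.card_pos

end

end Fermat.Agent.TW56
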