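/-
Taylor-Wiles generators: the strictly ordinary condition on the adjoint module at `p`.
-/
import Fermat.Agent.GD.GW.AdLocal

set_option autoImplicit false
set_option linter.style.haveILetI false

noncomputable section

namespace Fermat.Agent.TW56

open Fermat.Agent.Galois (GQ)
open Fermat.Agent.GD
open Matrix

local notation "ℚb" => AlgebraicClosure ℚ

variable {k : Type} [Field k]

/-- The line on which the group acts through the determinant. -/
def DetMod (_R : GQ →* Matrix (Fin 2) (Fin 2) k) : Type := k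

section

variable {R : GQ →* Matrix (Fin 2) (Fin 2) k}

instance : AddCommGroup (DetMod R) := inferInstanceAs (AddCommGroup k)
instance [Finite k] : Finite (DetMod R) := inferInstanceAs (Finite k)

/-- The scalar. -/
def DetMod.val : DetMod R →+ k := AddMonoidHom.id k

/-- The element of a scalar. -/
def DetMod.of : k →+ DetMod R := AddMonoidHom.id k

instance : DistribMulAction GQ (DetMod R) where
  smul g x := DetMod.of ((R g).det * DetMod.val x)
  one_smul x := show (R 1).det * DetMod.val x = DetMod.val x by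
    rw [map_one, Matrix.det_one, one_mul]
  mul_smul g h x := show (R (g * h)).det * DetMod.val x = (R g).det * ((R h).det * DetMod.val x) by
    rw [map_mul, Matrix.det_mul, mul_assoc]
  smul_zero g := show (R g).det * DetMod.val (0 : DetMod R) = (0 : k) by rw [map_zero, mul_zero]
  smul_add g x y := show (R g).det * DetMod.val (x + y) =
      (R g).det * DetMod.val x + (R g).det * DetMod.val y by rw [map_add, mul_add]

theorem DetMod.val_smul (g : GQ) (x : DetMod R) :
    DetMod.val (g • x) = (R g).det * DetMod.val x := rfl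

theorem DetMod.val_injective : Function.Injective (DetMod.val (R := R)) := fun _ _ h => h

end

variable {R : GQ →* Matrix (Fin 2) (Fin 2) k}
variable {M : Type} [AddCommGroup M] [DistribMulAction GQ M]

local instance instLDOrdinary (v : Place) : DistribMulAction (LD v).G M :=
  inferInstanceAs (DistribMulAction (decomp v) M)

variable (R)

/-- The upper triangular shape in the basis given by `P`. -/
def IsOrdBasis (q : Nat.Primes) (P : (Matrix (Fin 2) (Fin 2) k)ˣ) : Prop :=
  ∀ d ∈ decomp (some q), (P⁻¹.1 * R d * P.1) 1 0 = 0 ∧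
    (P⁻¹.1 * R d * P.1) 1 1 * (P⁻¹.1 * R d * P.1) 1 1 = 1

variable (k)

/-- The upper nilpotent matrix. -/
def eUp : Matrix (Fin 2) (Fin 2) k := !![0, 1; 0, 0]

/-- The lower nilpotent matrix. -/
def eLow : Matrix (Fin 2) (Fin 2) k := !![0, 0; 1, 0]

variable {k}

/-- The lower nilpotent element of the adjoint module in the basis given by `P`. -/
def ordLow (P : (Matrix (Fin 2) (Fin 2) k)ˣ) (t : k) : Ad0 R :=
  (⟨P.1 * (t • eLow k) * P⁻¹.1, mem_sl2.mpr (by
    rw [Matrix.trace_mul_cycle, P.inv_mul, one_mul]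
    simp [eLow, Matrix.trace_fin_two])⟩ : sl2 k)

theorem ordLow_add (P : (Matrix (Fin 2) (Fin 2) k)ˣ) (s t : k) :
    ordLow R P (s + t) = ordLow R P s + ordLow R P t :=
  Ad0.mat_injective (by
    rw [map_add]
    show P.1 * ((s + t) • eLow k) * P⁻¹.1 = P.1 * (s • eLow k) * P⁻¹.1 + P.1 * (t • eLow k) * P⁻¹.1
    rw [add_smul, mul_add, add_mul])

/-- Strictly ordinary cocycles: up to the coboundary of a lower nilpotent element their values lie
on the line. -/
def ordCond (q : Nat.Primes) (P : (Matrix (Fin 2) (Fin 2) k)ˣ) :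
    AddSubgroup ((LD (some q)).Z1 (Ad0 R)) where
  carrier := {x | ∃ t : k, ∀ d : decomp (some q), ∃ u : k,
    Ad0.mat (x.1 d - ((d : GQ) • ordLow R P t - ordLow R P t)) = u • (P.1 * eUp k * P⁻¹.1)}
  zero_mem' := ⟨0, fun d => ⟨0, by
    have h0 : ordLow R P 0 = 0 :=
      add_eq_left.mp ((ordLow_add R P 0 0).symm.trans (by rw [add_zero]))
    rw [h0, smul_zero, sub_zero, zero_smul]
    show Ad0.mat ((0 : Ad0 R) - 0) = 0
    rw [sub_zero, map_zero]⟩⟩
  add_mem' := by
    rintro a b ⟨s, hs⟩ ⟨t, ht⟩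
    refine ⟨s + t, fun d => ?_⟩
    obtain ⟨u, hu⟩ := hs d
    obtain ⟨v, hv⟩ := ht d
    refine ⟨u + v, ?_⟩
    rw [add_smul, ← hu, ← hv, ← map_add, ordLow_add, smul_add]
    show Ad0.mat (a.1 d + b.1 d - _) = _
    congr 1
    abel
  neg_mem' := by
    rintro a ⟨s, hs⟩
    refine ⟨-s, fun d => ?_⟩
    obtain ⟨u, hu⟩ := hs d
    refine ⟨-u, ?_⟩
    have hn : ordLow R P (-s) = -ordLow R P s := by
      have h0 : ordLow R P 0 = 0 :=
        add_eq_left.mp ((ordLow_add R P 0 0).symm.trans (by rw [add_zero]))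
      refine eq_neg_of_add_eq_zero_left ?_
      rw [← ordLow_add, neg_add_cancel, h0]
    rw [neg_smul, ← hu, ← map_neg, hn, smul_neg]
    show Ad0.mat (-a.1 d - _) = _
    congr 1
    abel

variable {R}

section

variable {q : Nat.Primes} {P : (Matrix (Fin 2) (Fin 2) k)ˣ}

theorem conj_rep_inv (g : GQ) :
    (P⁻¹.1 * R g * P.1) * (P⁻¹.1 * R g⁻¹ * P.1) = 1 := by
  calc (P⁻¹.1 * R g * P.1) * (P⁻¹.1 * R g⁻¹ * P.1)
      = P⁻¹.1 * (R g * (P.1 * P⁻¹.1) * R g⁻¹) * P.1 := by simp only [mul_assoc]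
    _ = 1 := by rw [P.mul_inv, mul_one, TW.rep_mul_inv, mul_one, P.inv_mul]

theorem conj_sub (g : GQ) (X : Matrix (Fin 2) (Fin 2) k) :
    R g * (P.1 * X * P⁻¹.1) * R g⁻¹ - P.1 * X * P⁻¹.1 =
      P.1 * ((P⁻¹.1 * R g * P.1) * X * (P⁻¹.1 * R g⁻¹ * P.1) - X) * P⁻¹.1 := by
  rw [mul_sub, sub_mul]
  congr 1
  calc R g * (P.1 * X * P⁻¹.1) * R g⁻¹
      = (P.1 * P⁻¹.1) * R g * (P.1 * X * P⁻¹.1) * R g⁻¹ * (P.1 * P⁻¹.1) := by
        rw [P.mul_inv, one_mul, mul_one]
    _ = _ := by simp only [mul_assoc]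

/-- The determinant acts on the line. -/
theorem conj_eUp (hP : IsOrdBasis R q P) {d : GQ} (hd : d ∈ decomp (some q)) :
    R d * (P.1 * eUp k * P⁻¹.1) * R d⁻¹ = (R d).det • (P.1 * eUp k * P⁻¹.1) := by
  set A := P⁻¹.1 * R d * P.1 with hA
  obtain ⟨h10, h11⟩ := hP d hd
  rw [← hA] at h10 h11
  have hdet : A.det = (R d).det := by
    rw [hA, Matrix.det_mul, Matrix.det_mul, mul_right_comm, ← Matrix.det_mul, P.inv_mul,
      Matrix.det_one, one_mul]
  have e : A * eUp k = (R d).det • (eUp k * A) := by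
    rw [← hdet, Matrix.det_fin_two, h10, mul_zero, sub_zero]
    ext i j
    simp only [Matrix.smul_apply, smul_eq_mul, Matrix.mul_apply, Fin.sum_univ_two, eUp]
    fin_cases i <;> fin_cases j <;> simp [h10, mul_assoc, h11]
  rw [← sub_eq_zero]
  have := conj_sub (R := R) (P := P) d (eUp k)
  rw [e, Matrix.smul_mul, mul_assoc (eUp k), hA, conj_rep_inv, mul_one] at this
  rw [eq_add_of_sub_eq this, mul_sub, sub_mul, Matrix.mul_smul, Matrix.smul_mul]
  abel

/-- Upper triangular elements have coboundaries on the line. -/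
theorem conj_sub_upper (hP : IsOrdBasis R q P) {d : GQ} (hd : d ∈ decomp (some q)) (a b : k) :
    ∃ u : k, R d * (P.1 * !![a, b; 0, -a] * P⁻¹.1) * R d⁻¹ - P.1 * !![a, b; 0, -a] * P⁻¹.1 =
      u • (P.1 * eUp k * P⁻¹.1) := by
  set A := P⁻¹.1 * R d * P.1 with hA
  set B := P⁻¹.1 * R d⁻¹ * P.1 with hB
  have h10 := (hP d hd).1
  have h10' := (hP d⁻¹ (inv_mem hd)).1
  rw [← hA] at h10
  rw [← hB] at h10'
  have h := conj_rep_inv (R := R) (P := P) d
  rw [← hA, ← hB] at h
  have e00 := congrFun (congrFun h 0) 0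
  have e11 := congrFun (congrFun h 1) 1
  simp [Matrix.mul_apply, Fin.sum_univ_two, h10, h10'] at e00 e11
  refine ⟨(A * !![a, b; 0, -a] * B) 0 1 - b, ?_⟩
  rw [conj_sub, ← hA, ← hB, ← Matrix.smul_mul, ← Matrix.mul_smul]
  congr 2
  ext i j
  fin_cases i <;> fin_cases j <;>
    simp [eUp, Matrix.mul_apply, Fin.sum_univ_two, h10, h10']
  · linear_combination a * e00
  · linear_combination -a * e11

theorem b1_le_ordCond (hP : IsOrdBasis R q P) :
    ((LD (some q)).B1 (Ad0 R)).addSubgroupOf ((LD (some q)).Z1 (Ad0 R)) ≤ ordCond R q P := by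
  rintro x ⟨m, hm⟩
  set X := P⁻¹.1 * Ad0.mat m * P.1 with hX
  refine ⟨X 1 0, fun d => ?_⟩
  obtain ⟨u, hu⟩ := conj_sub_upper hP d.2 (X 0 0) (X 0 1)
  refine ⟨u, ?_⟩
  have htr : X 1 1 = -X 0 0 := by
    have h : X.trace = 0 := by
      rw [hX, Matrix.trace_mul_cycle, P.mul_inv, one_mul, Ad0.trace_mat]
    rw [Matrix.trace_fin_two] at h
    exact eq_neg_of_add_eq_zero_right h
  have e : Ad0.mat m = P.1 * (X 1 0 • eLow k) * P⁻¹.1 +
      P.1 * !![X 0 0, X 0 1; 0, -X 0 0] * P⁻¹.1 := by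
    rw [← add_mul, ← mul_add, show X 1 0 • eLow k + !![X 0 0, X 0 1; 0, -X 0 0] = X by
      ext i j
      fin_cases i <;> fin_cases j <;> simp [eLow, htr], hX]
    simp only [← mul_assoc]
    rw [P.mul_inv, one_mul, mul_assoc, P.mul_inv, mul_one]
  rw [← hu, show x.1 d = (d : GQ) • m - m from (congrFun hm d).symm, map_sub, map_sub, map_sub,
    Ad0.mat_smul, Ad0.mat_smul]
  show R d * Ad0.mat m * R (d : GQ)⁻¹ - Ad0.mat m -
    (R d * (P.1 * (X 1 0 • eLow k) * P⁻¹.1) * R (d : GQ)⁻¹ - P.1 * (X 1 0 • eLow k) * P⁻¹.1) = _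
  rw [e, mul_add, add_mul]
  abel

theorem card_hom_line [Finite k] {p : ℕ} [Fact p.Prime] [CharP k p] :
    Finite (k →+ Additive ℚbˣ) ∧ Nat.card (k →+ Additive ℚbˣ) ≤ Nat.card k := by
  haveI : NeZero p := ⟨(Fact.out : p.Prime).ne_zero⟩
  have hk : ∀ m : k, p • m = 0 := fun m => by rw [nsmul_eq_mul, CharP.cast_eq_zero, zero_mul]
  have hsur : Function.Surjective fun ψ : k →+ ZMod p => (toMu p).comp ψ := by
    intro φ
    choose a ha using fun m : k => exists_toMu p (u := φ m) (by rw [← map_nsmul, hk, map_zero])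
    refine ⟨AddMonoidHom.mk' a fun m n => toMu_injective p ?_, AddMonoidHom.ext ha⟩
    rw [map_add, ha, ha, ha, map_add]
  haveI : Finite (k →+ ZMod p) := Finite.of_injective _ DFunLike.coe_injective
  refine ⟨Finite.of_surjective _ hsur, (Nat.card_le_card_of_surjective _ hsur).trans ?_⟩
  rw [card_addHom_fin hk (fun v => by rw [nsmul_eq_mul, ZMod.natCast_self, zero_mul]) (d := 1)
    (by rw [Nat.card_zmod, pow_one]), pow_one]

variable {p : ℕ} [Fact p.Prime]

theorem cardClasses_ord_le (hp2 : p ≠ 2) [Finite k] [CharP k p] (hqp : (q : ℕ) = p)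
    (hP : IsOrdBasis R q P) (hM : (LD (some q)).Smooth (Ad0 R)) :
    cardClasses (Ad0 R) (some q) (ordCond R q P) ≤
      Nat.card ((LD (some q)).fixed (Ad0 R)) * Nat.card k := by
  set e₀ : Matrix (Fin 2) (Fin 2) k := P.1 * eUp k * P⁻¹.1 with he₀
  have hcoord : ∀ c : k, (P⁻¹.1 * (c • e₀) * P.1) 0 1 = c := fun c => by
    rw [he₀, Matrix.mul_smul, Matrix.smul_mul, ← mul_assoc, ← mul_assoc, P.inv_mul, one_mul,
      mul_assoc, P.inv_mul, mul_one]
    simp [eUp]
  let eAd : Ad0 R := (⟨e₀, mem_sl2.mpr (by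
    rw [he₀, Matrix.trace_mul_cycle, P.inv_mul, one_mul]
    simp [eUp, Matrix.trace_fin_two])⟩ : sl2 k)
  have hsmN : (LD (some q)).Smooth (DetMod R) := by
    intro m
    obtain ⟨N, hN, hfix⟩ := hM eAd
    refine ⟨N, hN, fun (s : decomp (some q)) hs => DetMod.val_injective ?_⟩
    have h1 : R (s : GQ) * e₀ * R (s : GQ)⁻¹ = e₀ :=
      congrArg Ad0.mat (hfix s hs)
    rw [he₀, conj_eUp hP s.2, ← he₀] at h1
    have h2 := congrArg (fun Y => (P⁻¹.1 * Y * P.1) 0 1) h1
    simp only [hcoord] at h2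
    rw [← one_smul k e₀] at h2
    simp only [hcoord] at h2
    show (R _).det * DetMod.val m = DetMod.val m
    rw [show (R (s : GQ)).det = 1 from h2, one_mul]
  have hpN : ∀ m : DetMod R, p • m = 0 := fun m => DetMod.val_injective (by
    rw [map_nsmul, map_zero, nsmul_eq_mul, CharP.cast_eq_zero, zero_mul])
  haveI hfinN := finite_z1 hp2 hpN hsmN
  haveI := finite_z1 hp2 Ad0.nsmul_eq_zero hM
  -- the cocycles on the line
  have hline : Nat.card ((LD (some q)).Z1 (DetMod R)) ≤ Nat.card k ^ 3 := by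
    have h1 := cardClasses_mul_card (M := DetMod R) hsmN ⊤ le_top
    have hc : cardClasses (DetMod R) (some q) ⊤ =
        Nat.card ((LD (some q)).fixed (DetMod R)) *
          Nat.card ((LD (some q)).HomC (DetMod R) (Additive ℚbˣ)) * Nat.card k := by
      refine (card_local_classes hp2 q hpN hsmN).trans ?_
      rw [if_pos hqp]
      rfl
    replace h1 := (congrArg (· * Nat.card (DetMod R)) hc).symm.trans
      (h1.trans (congrArg (_ * ·) AddSubgroup.card_top))
    haveI : Finite (DetMod R →+ Additive ℚbˣ) := (card_hom_line (k := k) (p := p)).1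
    have h2 : Nat.card ((LD (some q)).HomC (DetMod R) (Additive ℚbˣ)) ≤ Nat.card k :=
      (Nat.card_le_card_of_injective _ Subtype.val_injective).trans
        (card_hom_line (k := k) (p := p)).2
    haveI : Nonempty ((LD (some q)).fixed (DetMod R)) := ⟨⟨0, fun g => smul_zero g⟩⟩
    have hpos : 0 < Nat.card ((LD (some q)).fixed (DetMod R)) := Nat.card_pos
    refine Nat.le_of_mul_le_mul_left ?_ hpos
    refine h1.symm.trans_le ?_
    rw [mul_assoc, mul_assoc]
    refine Nat.mul_le_mul le_rfl ?_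
    calc _ ≤ Nat.card k * (Nat.card k * Nat.card k) := Nat.mul_le_mul h2 le_rfl
      _ = _ := by ring
  refine cardClasses_le_of_card hM _ (b1_le_ordCond hP) ?_
  rw [card_ad0, ← pow_succ, pow_succ']
  refine le_trans ?_ (Nat.mul_le_mul le_rfl hline)
  rw [← Nat.card_prod]
  choose t ht using fun x : ordCond R q P => x.2
  choose u hu using ht
  have hadd : ∀ (x : ordCond R q P) (g h : decomp (some q)),
      u x (g * h) = u x g + (R g).det * u x h := by
    intro x g h
    have e : x.1.1 (g * h : decomp (some q)) -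
        (((g * h : decomp (some q)) : GQ) • ordLow R P (t x) - ordLow R P (t x)) =
        (x.1.1 g - ((g : GQ) • ordLow R P (t x) - ordLow R P (t x))) +
          (g : GQ) • (x.1.1 h - ((h : GQ) • ordLow R P (t x) - ordLow R P (t x))) := by
      rw [z1_mul, Subgroup.coe_mul, mul_smul, smul_sub, smul_sub]
      abel
    have e1 := congrArg Ad0.mat e
    rw [map_add, Ad0.mat_smul, hu, hu, hu, Matrix.mul_smul, Matrix.smul_mul,
      conj_eUp hP g.2, smul_smul, ← add_smul] at e1
    have e2 := congrArg (fun Y => (P⁻¹.1 * Y * P.1) 0 1) e1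
    simp only [hcoord, ← he₀] at e2
    rw [e2, mul_comm]
  have hconst : ∀ x : ordCond R q P, (LD (some q)).Const₁ fun d => (u x d : DetMod R) := by
    intro x
    obtain ⟨N, hN, hxN⟩ := x.1.2.1
    obtain ⟨N', hN', hFN⟩ := hM (ordLow R P (t x))
    refine ⟨N ⊓ N', (LD (some q)).inf N N' hN hN', fun (g s : decomp (some q)) hs => ?_⟩
    have e : x.1.1 (g * s : decomp (some q)) -
        (((g * s : decomp (some q)) : GQ) • ordLow R P (t x) - ordLow R P (t x)) =
        x.1.1 g - ((g : GQ) • ordLow R P (t x) - ordLow R P (t x)) := by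
      have e1 : x.1.1 (g * s : decomp (some q)) = x.1.1 g := hxN g s hs.1
      have e2 : ((s : decomp (some q)) : GQ) • ordLow R P (t x) = ordLow R P (t x) := hFN s hs.2
      rw [e1, Subgroup.coe_mul, mul_smul, e2]
    have e1 := congrArg Ad0.mat e
    rw [hu, hu] at e1
    have e2 := congrArg (fun Y => (P⁻¹.1 * Y * P.1) 0 1) e1
    simp only [hcoord, ← he₀] at e2
    exact e2
  refine @Nat.card_le_card_of_injective _ (k × (LD (some q)).Z1 (DetMod R))
    (@Finite.instProd k _ inferInstance hfinN)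
    (fun x => (t x, ⟨fun d => (u x d : DetMod R), hconst x,
      fun g h => DetMod.val_injective ((hadd x g h).trans (map_add DetMod.val _ _).symm)⟩))
    fun x y exy => ?_
  obtain ⟨e1, e2⟩ := Prod.mk.inj exy
  refine Subtype.ext (Subtype.ext (funext fun d => ?_))
  have e3 : u x d = u y d := congrFun (congrArg Subtype.val e2) d
  have e4 := (hu x d).trans ((congrArg (· • _) e3).trans (hu y d).symm)
  have e5 := Ad0.mat_injective e4
  rw [e1] at e5
  exact sub_left_inj.mp e5

end

end Fermat.Agent.TW56
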