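/-
Taylor-Wiles generators: derivatives of strictly ordinary deformations are strictly ordinary
classes.
-/
import Fermat.Agent.GD.TW56.Ordinary
import Fermat.Agent.GD.TW56.Rigid
import Fermat.Prelude.Def_GaloisRep_StrictOrdinary

set_option autoImplicit false
set_option linter.style.haveILetI false

noncomputable section

open IsLocalRing
open Fermat.Agent.Galois (GQ)
open Fermat.Agent.Deform (Mat2 mapHom HasMatrix)

namespace Fermat.Agent.TW56

variable {O T k : Type} [CommRing O] [CommRing T] [IsLocalRing T] [Algebra O T] [Field k]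
variable {π : T →+* k} {p : ℕ} [Fact p.Prime] [CharP k p]
variable {M : Type} [AddCommGroup M] [DistribMulAction GQ M]

local instance instLDOrdMem (v : GD.Place) : DistribMulAction (GD.LD v).G M :=
  inferInstanceAs (DistribMulAction (GD.decomp v) M)

omit [IsLocalRing T] [Fact p.Prime] in
theorem map_eq_of_mem_span {x : T} (h : x ∈ Ideal.span {((p : ℕ) : T)}) (D : tanGroup O π) :
    π x = 0 ∧ D.1 x = 0 := by
  obtain ⟨c, rfl⟩ := Ideal.mem_span_singleton'.mp h
  refine ⟨by rw [map_mul, map_natCast, CharP.cast_eq_zero, mul_zero], ?_⟩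
  rw [D.2.1, map_natCast π, CharP.cast_eq_zero k p, ← toTan_D, (toTan D).map_natCast, mul_zero,
    mul_zero, add_zero]

/-- The local properties of a strictly ordinary deformation at the chosen place over `p`. -/
theorem exists_ordBasis {ρ : GaloisRepAdic T} (hord : ρ.IsStrictOrdinaryAt p)
    (hdet : ρ.DetIsCyclotomic p) {r : GQ →* Mat2 T} (hr : HasMatrix ρ r) {R : GQ →* Mat2 k}
    (hR : ∀ σ, (r σ).map π = R σ) (h2 : (2 : k) ≠ 0) {q : Nat.Primes} (hqp : (q : ℕ) = p)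
    (hM : (GD.LD (some q)).Smooth (GD.Ad0 R)) :
    ∃ P : (Mat2 k)ˣ, IsOrdBasis R q P ∧ ∀ (D : tanGroup O π)
      (x : (GD.LD (some q)).Z1 (GD.Ad0 R)),
      (∀ d : GD.decomp (some q), GD.Ad0.mat (x.1 d) = (toTan D).cocycle r R d) →
        x ∈ ordCond R q P := by
  obtain ⟨bas, hbas⟩ := hr
  obtain ⟨L, ⟨b, rfl⟩, -, -, hD⟩ :=
    hord.2 (GD.placeAt q) (hqp ▸ GD.placeAt_liesOverPrime q)
  let U : (Mat2 T)ˣ := ⟨bas.toMatrix b, b.toMatrix bas,
    bas.toMatrix_mul_toMatrix_flip b, b.toMatrix_mul_toMatrix_flip bas⟩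
  let P : (Mat2 k)ˣ := Units.map (mapHom π) U
  let s : GQ → Mat2 T := fun σ => LinearMap.toMatrix b b (ρ.ρ σ)
  have hrs : ∀ σ, r σ * U.1 = U.1 * s σ := fun σ => by
    show r σ * bas.toMatrix b = bas.toMatrix b * LinearMap.toMatrix b b (ρ.ρ σ)
    rw [← hbas σ, linearMap_toMatrix_mul_basis_toMatrix, basis_toMatrix_mul_linearMap_toMatrix]
  have hS : ∀ σ, P⁻¹.1 * R σ * P.1 = (s σ).map π := fun σ => by
    have e := congrArg (mapHom π) (hrs σ)
    rw [map_mul, map_mul, Deform.mapHom_apply, Deform.mapHom_apply, Deform.mapHom_apply, hR] at e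
    rw [mul_assoc]
    refine (congrArg (P⁻¹.1 * ·) e).trans ?_
    show P⁻¹.1 * (P.1 * (s σ).map π) = _
    rw [← mul_assoc, P.inv_mul, one_mul]
  have hdat : ∀ σ ∈ GD.decomp (some q), s σ 1 0 = 0 ∧ π (s σ 1 1) * π (s σ 1 1) = 1 ∧
      ∀ D : tanGroup O π, D.1 (s σ 0 0) = 0 ∧ D.1 (s σ 1 1) = 0 := by
    intro σ hσ
    obtain ⟨x, z, hx, hz, hxz⟩ := hD σ hσ
    have e0 : ∀ i, s σ i 0 = if i = 0 then x else 0 := fun i => by
      show LinearMap.toMatrix b b (ρ.ρ σ) i 0 = _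
      rw [LinearMap.toMatrix_apply, hx _ (Submodule.mem_span_singleton_self _), map_smul,
        b.repr_self, Finsupp.smul_apply, Finsupp.single_apply]
      fin_cases i <;> simp
    have h00 : s σ 0 0 = x := (e0 0).trans (if_pos rfl)
    have h10 : s σ 1 0 = 0 := (e0 1).trans (if_neg (by decide))
    have h11 : s σ 1 1 = z := by
      obtain ⟨c, hc⟩ := Submodule.mem_span_singleton.mp (hz (b 1))
      show LinearMap.toMatrix b b (ρ.ρ σ) 1 1 = _
      rw [LinearMap.toMatrix_apply, ← sub_add_cancel (ρ.ρ σ (b 1)) (z • b 1), ← hc, map_add,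
        map_smul, map_smul, b.repr_self, b.repr_self]
      simp
    obtain ⟨a, ha, -⟩ := GD.exists_cyclo_exponent p σ
    have h1 := hxz 1 a (by simpa using ha)
    have h3 := hdet.2 1 σ a (by simpa using ha)
    rw [pow_one] at h1 h3
    rw [← LinearMap.det_toMatrix b, Matrix.det_fin_two, show LinearMap.toMatrix b b (ρ.ρ σ) = s σ
      from rfl, h00, h10, h11, mul_zero, sub_zero] at h3
    have hdetR : π x * π z ≠ 0 := by
      have h4 : (P⁻¹.1 * R σ * P.1).det ≠ 0 := by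
        rw [Matrix.det_mul, Matrix.det_mul, mul_right_comm, ← Matrix.det_mul, P.inv_mul,
          Matrix.det_one, one_mul]
        exact TW.det_rep_ne_zero R σ
      rw [hS, Matrix.det_fin_two] at h4
      simpa [h00, h10, h11] using h4
    have k1 : ∀ D : tanGroup O π, π x = (a : k) * π z ∧ D.1 x = (a : k) * D.1 z ∧
        π x * π z = (a : k) ∧ π x * D.1 z + D.1 x * π z = 0 := fun D => by
      obtain ⟨p1, d1⟩ := map_eq_of_mem_span h1 D
      obtain ⟨p3, d3⟩ := map_eq_of_mem_span h3 D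
      rw [map_sub, sub_eq_zero, map_mul, map_natCast] at p1 p3
      rw [map_sub, sub_eq_zero] at d1 d3
      rw [D.2.1, map_natCast π, ← toTan_D, (toTan D).map_natCast, zero_mul, add_zero] at d1
      rw [D.2.1, ← toTan_D, (toTan D).map_natCast] at d3
      exact ⟨p1, d1, p3, d3⟩
    refine ⟨h10, ?_, fun D => ?_⟩
    · obtain ⟨p1, -, p3, -⟩ := k1 0
      rw [h11]
      refine mul_left_cancel₀ (a := (a : k)) ?_ (by rw [mul_one, ← mul_assoc, ← p1, p3])
      rw [← p3]
      exact hdetR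
    · obtain ⟨p1, d1, -, d3⟩ := k1 D
      rw [h00, h11]
      rw [p1, d1] at d3
      have hz0 : D.1 z = 0 := by
        refine (mul_eq_zero.mp (show 2 * (a : k) * π z * D.1 z = 0 from ?_)).resolve_left ?_
        · linear_combination d3
        · refine mul_ne_zero (mul_ne_zero h2 ?_) (right_ne_zero_of_mul hdetR)
          intro h0
          exact left_ne_zero_of_mul hdetR (by rw [p1, h0, zero_mul])
      exact ⟨by rw [d1, hz0, mul_zero], hz0⟩
  have hP : IsOrdBasis R q P := fun d hd => by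
    rw [hS]
    obtain ⟨h10, h11, -⟩ := hdat d hd
    exact ⟨by rw [Matrix.map_apply, h10, map_zero], h11⟩
  refine ⟨P, hP, fun D x hx => ?_⟩
  set DU : Mat2 k := U.1.map D.1 * P⁻¹.1 with hDU
  let y : GD.Ad0 R := (⟨((DU.trace) / 2) • (1 : Mat2 k) - DU, GD.mem_sl2.mpr (by
    rw [Matrix.trace_sub, Matrix.trace_smul, Matrix.trace_one, Fintype.card_fin, smul_eq_mul,
      Nat.cast_ofNat, div_mul_cancel₀ _ h2, sub_self])⟩ : GD.sl2 k)
  have hsm := GD.b1_le_z1 hM
  let b₀ : (GD.LD (some q)).Z1 (GD.Ad0 R) := ⟨_, hsm ⟨y, rfl⟩⟩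
  rw [← sub_add_cancel x b₀]
  refine add_mem ?_ (b1_le_ordCond hP ⟨y, rfl⟩)
  refine ⟨0, fun d => ?_⟩
  obtain ⟨h10, -, hD0⟩ := hdat d d.2
  obtain ⟨h00', h11'⟩ := hD0 D
  refine ⟨D.1 (s d 0 1) * (P⁻¹.1 * R (d : GQ)⁻¹ * P.1) 1 1, ?_⟩
  have hlow : ordLow R P 0 = 0 :=
    add_eq_left.mp ((ordLow_add R P 0 0).symm.trans (by rw [add_zero]))
  rw [hlow, smul_zero, sub_zero, sub_zero]
  show GD.Ad0.mat (x.1 d - ((d : GQ) • y - y)) = _
  rw [map_sub, map_sub, GD.Ad0.mat_smul, hx]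
  show (toTan D).cocycle r R d - (R d * ((DU.trace / 2) • 1 - DU) * R (d : GQ)⁻¹ -
    ((DU.trace / 2) • 1 - DU)) = _
  rw [mul_sub, sub_mul, Matrix.mul_smul, Matrix.smul_mul, mul_one, TW.rep_mul_inv,
    sub_sub_sub_cancel_left]
  -- the derivative of the change of basis
  have e1 := congrArg (fun A : Mat2 T => A.map D.1) (hrs (d : GQ))
  simp only [← toTan_D, LL.Tan.matrix_mul] at e1
  rw [hR, ← hS, toTan_D] at e1
  have hU : U.1.map π = P.1 := rfl
  rw [hU] at e1
  have hs : (s d).map D.1 = D.1 (s d 0 1) • eUp k := by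
    ext i j
    fin_cases i <;> fin_cases j <;> simp [eUp, h00', h11', h10]
  have hup : eUp k * (P⁻¹.1 * R (d : GQ)⁻¹ * P.1) =
      (P⁻¹.1 * R (d : GQ)⁻¹ * P.1) 1 1 • eUp k := by
    have h10' := (hP (d : GQ)⁻¹ (inv_mem d.2)).1
    generalize P⁻¹.1 * R (d : GQ)⁻¹ * P.1 = B at h10'
    ext i j
    simp only [eUp, Matrix.smul_apply, Matrix.mul_apply, Fin.sum_univ_two]
    fin_cases i <;> fin_cases j <;> simp [h10']
  calc (toTan D).cocycle r R d - (DU - R d * DU * R (d : GQ)⁻¹)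
      = (((r d).map D.1 * P.1) * P⁻¹.1 + R d * DU - DU * R d) * R (d : GQ)⁻¹ := by
        rw [mul_assoc ((r d).map D.1), P.mul_inv, mul_one, sub_mul, add_mul, mul_assoc DU,
          TW.rep_mul_inv, mul_one, LL.Tan.cocycle, toTan_D]
        abel
    _ = P.1 * (s d).map D.1 * P⁻¹.1 * R (d : GQ)⁻¹ := by
        congr 1
        rw [hDU, eq_sub_of_add_eq' e1]
        simp only [sub_mul, add_mul, mul_assoc, P.mul_inv, mul_one]
        abel
    _ = P.1 * ((s d).map D.1 * (P⁻¹.1 * R (d : GQ)⁻¹ * P.1)) * P⁻¹.1 := by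
        simp only [mul_assoc, P.mul_inv, mul_one]
    _ = _ := by
        rw [hs, Matrix.smul_mul, hup, smul_smul, Matrix.mul_smul, Matrix.smul_mul]

end Fermat.Agent.TW56
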