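/-
Taylor-Wiles generators: the choice of the auxiliary primes and the bound on the generators.
-/
import Fermat.Agent.GD.TW56.Classes
import Fermat.Agent.GD.TW56.OrdMem
import Fermat.Agent.GD.TW56.BaseChange
import Fermat.Agent.LL.TWSel

set_option autoImplicit false
set_option linter.style.haveILetI false

noncomputable section

open IsLocalRing
open Fermat.Agent.Galois (GQ)
open Fermat.Agent.Deform (Mat2 mapHom HasMatrix RHasMatrix)

namespace Fermat.Agent.TW56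

variable {M : Type} [AddCommGroup M] [DistribMulAction GQ M]

local instance instLTMain (T : Finset Nat.Primes) : DistribMulAction (GD.LT T).G M :=
  inferInstanceAs (DistribMulAction GQ M)

local instance instLDMain (v : GD.Place) : DistribMulAction (GD.LD v).G M :=
  inferInstanceAs (DistribMulAction (GD.decomp v) M)

variable {𝒪 : Type} [CommRing 𝒪] [IsDomain 𝒪] [IsDiscreteValuationRing 𝒪]
  [IsAdicComplete (maximalIdeal 𝒪) 𝒪] [Finite (ResidueField 𝒪)]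

/-- The group theoretic output for one depth. -/
structure TWData (p : ℕ) (R : GQ →* Mat2 (ResidueField 𝒪)) (Smin : Finset ℕ) (g₀ : ℕ)
    (T₀ Q : Finset Nat.Primes) (N₀ : Subgroup GQ) : Prop where
  mem_of_mem : ∀ q : Nat.Primes, (q : ℕ) ∈ Smin → q ∈ T₀
  disjoint : Disjoint Q T₀
  isLevel : (GD.LT T₀).IsLevel N₀
  fixed : ∀ s ∈ N₀, R s = 1
  bound : ∀ (L : ∀ v : GD.Place, AddSubgroup ((GD.LD v).Z1 (GD.Ad0 R))),
    (∀ v, ((GD.LD v).B1 (GD.Ad0 R)).addSubgroupOf ((GD.LD v).Z1 (GD.Ad0 R)) ≤ L v) →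
    (∀ q ∈ Q, L (some q) = ⊤) → ∀ d e : Nat.Primes → ℕ,
    (∀ q ∈ T₀, GD.cardClasses (GD.Ad0 R) (some q) (L (some q)) * Nat.card (ResidueField 𝒪) ^ d q ≤
      Nat.card ((GD.LD (some q)).fixed (GD.Ad0 R)) * Nat.card (ResidueField 𝒪) ^ e q) →
    Finite (GD.selmerClasses (T₀ ∪ Q) (GD.Ad0 R) L) ∧
      Nat.card (GD.selmerClasses (T₀ ∪ Q) (GD.Ad0 R) L) *
          Nat.card (ResidueField 𝒪) ^ (1 + ∑ q ∈ T₀, d q) ≤
        Nat.card (ResidueField 𝒪) ^ (g₀ + ∑ q ∈ T₀, e q)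

variable {p : ℕ} [Fact p.Prime] [CharP (ResidueField 𝒪) p]
variable {ρbar : ResidualGaloisRep (ResidueField 𝒪)}

/-- The ring of a deformation datum needs at most `g₀` generators. -/
theorem surjective_of_datum (hp2 : p ≠ 2) {R : GQ →* Mat2 (ResidueField 𝒪)}
    (hbar : RHasMatrix ρbar R) (h : TW.TWHyp p R) {Smin : Finset ℕ} (hpSmin : p ∈ Smin)
    (hram : ∀ l ∈ Smin, l ≠ p → ¬ ρbar.IsUnramifiedAt l) {g₀ : ℕ} {T₀ Q : Finset Nat.Primes}
    {N₀ : Subgroup GQ} (X : TWData p R Smin g₀ T₀ Q N₀)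
    {𝒟 : ∀ ⦃A : Type⦄ [CommRing A] [IsLocalRing A] [Algebra 𝒪 A], GaloisRepAdic A → Prop}
    (DQ : GaloisRep.DeformationRingData 𝒪 ρbar 𝒟)
    (hbc : letI := Deform.dualAlgebra 𝒪
      ∀ (φ : DQ.R →+* DualNumber (ResidueField 𝒪)) (hφ : IsLocalHom φ), Function.Surjective φ →
        𝒟 (DQ.ρ.baseChangeAlong φ hφ))
    (hdet : DQ.ρ.DetIsCyclotomic p)
    (hunr : ∀ q : Nat.Primes, (q : ℕ) ∉ Smin → q ∉ Q → DQ.ρ.IsUnramifiedAt q)
    (hunip : ∀ l ∈ Smin, l.Prime → l ≠ p → DQ.ρ.IsUnipotentOnInertiaAt l)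
    (hLp : ∀ (πa : DQ.R →ₐ[𝒪] ResidueField 𝒪) (r : GQ →* Mat2 DQ.R), HasMatrix DQ.ρ r →
      (∀ σ, (r σ).map (πa : DQ.R →+* ResidueField 𝒪) = R σ) → ∀ q : Nat.Primes, (q : ℕ) = p →
        (GD.LD (some q)).Smooth (GD.Ad0 R) → ∃ Lp : AddSubgroup ((GD.LD (some q)).Z1 (GD.Ad0 R)),
          ((GD.LD (some q)).B1 (GD.Ad0 R)).addSubgroupOf ((GD.LD (some q)).Z1 (GD.Ad0 R)) ≤ Lp ∧
          GD.cardClasses (GD.Ad0 R) (some q) Lp ≤
            Nat.card ((GD.LD (some q)).fixed (GD.Ad0 R)) * Nat.card (ResidueField 𝒪) ∧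
          ∀ (D : tanGroup 𝒪 (πa : DQ.R →+* ResidueField 𝒪))
            (x : (GD.LD (some q)).Z1 (GD.Ad0 R)),
            (∀ d : GD.decomp (some q), GD.Ad0.mat (x.1 d) = (toTan D).cocycle r R d) → x ∈ Lp) :
    ∃ γ : MvPowerSeries (Fin g₀) 𝒪 →ₐ[𝒪] DQ.R, Function.Surjective γ := by
  classical
  obtain ⟨πa⟩ := Deform.exists_resMap (A := DQ.R) inferInstance DQ.residue_surjective
  have hπ0 : ∀ {t}, (πa : DQ.R →+* ResidueField 𝒪) t = 0 ↔ t ∈ maximalIdeal DQ.R := fun {t} =>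
    (Deform.mem_maximal_iff_resMap πa).symm
  set ψ := ResidueField.map (algebraMap 𝒪 DQ.R) with hψ
  obtain ⟨r, hr, hrR⟩ := Deform.exists_hasMatrix_lifting DQ.ρ (hbar.baseChangeAlong ψ)
    DQ.residual_isEquiv
  have hR : ∀ σ, (r σ).map (πa : DQ.R →+* ResidueField 𝒪) = R σ := fun σ => by
    ext i j
    refine ψ.injective ?_
    show ψ (πa (r σ i j)) = _
    rw [hψ, ← Deform.residue_eq_map_resMap πa]
    exact congrFun (congrFun (hrR σ) i) j
  have hN₀T := GD.isLevel_mono (T' := T₀ ∪ Q) Finset.subset_union_left X.isLevel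
  have hsm : ∀ v, (GD.LD v).Smooth (GD.Ad0 R) := GD.smooth_local (T := T₀ ∪ Q) hN₀T
    fun s hs x => GD.Ad0.smul_eq_self (X.fixed s hs) x
  choose Lp hB hcard hmem using fun (q : Nat.Primes) (hq : (q : ℕ) = p) =>
    hLp πa r hr hR q hq (hsm (some q))
  let L : ∀ q : Nat.Primes, AddSubgroup ((GD.LD (some q)).Z1 (GD.Ad0 R)) := fun q =>
    if hq : (q : ℕ) = p then Lp q hq else ⊤
  have hLeq : ∀ (q : Nat.Primes) (hq : (q : ℕ) = p), L q = Lp q hq := fun q hq => dif_pos hq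
  obtain ⟨hfin, hle⟩ := card_tanGroup_le hp2 hbar h Smin hpSmin hram T₀ Q X.mem_of_mem X.disjoint
    X.isLevel X.fixed X.bound hr hR hdet hunr hunip (fun t ht => hπ0.mpr ht)
    (fun D m hm => eq_zero_of_coboundary DQ hbc (fun o => πa.commutes o) hπ0 hr hbar hR D hm)
    L (fun q hq => (hB q hq).trans_eq (hLeq q hq).symm)
    (fun q hq _ => (hLeq q hq).symm ▸ hcard q hq)
    (fun q hq D x hx => (hLeq q hq).symm ▸ hmem q hq D x hx)
  exact exists_surjective_of_card πa hle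

omit [IsAdicComplete (maximalIdeal 𝒪) 𝒪] in
/-- The condition at `p` of a strictly ordinary datum. -/
theorem exists_ordinary_cond (hp2 : p ≠ 2) {R : GQ →* Mat2 (ResidueField 𝒪)} (h : TW.TWHyp p R)
    {T : Type} [CommRing T] [IsLocalRing T] [Algebra 𝒪 T] {ρ : GaloisRepAdic T}
    (hord : ρ.IsStrictOrdinaryAt p) (hdet : ρ.DetIsCyclotomic p) {π : T →+* ResidueField 𝒪}
    {r : GQ →* Mat2 T} (hr : HasMatrix ρ r) (hR : ∀ σ, (r σ).map π = R σ) {q : Nat.Primes}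
    (hq : (q : ℕ) = p) (hsm : (GD.LD (some q)).Smooth (GD.Ad0 R)) :
    ∃ Lp : AddSubgroup ((GD.LD (some q)).Z1 (GD.Ad0 R)),
      ((GD.LD (some q)).B1 (GD.Ad0 R)).addSubgroupOf ((GD.LD (some q)).Z1 (GD.Ad0 R)) ≤ Lp ∧
      GD.cardClasses (GD.Ad0 R) (some q) Lp ≤
        Nat.card ((GD.LD (some q)).fixed (GD.Ad0 R)) * Nat.card (ResidueField 𝒪) ∧
      ∀ (D : tanGroup 𝒪 π) (x : (GD.LD (some q)).Z1 (GD.Ad0 R)),
        (∀ d : GD.decomp (some q), GD.Ad0.mat (x.1 d) = (toTan D).cocycle r R d) → x ∈ Lp := by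
  obtain ⟨P, hP, hmem⟩ := exists_ordBasis (O := 𝒪) hord hdet hr hR (TW.two_ne_zero_of_twHyp h)
    hq hsm
  exact ⟨ordCond R q P, b1_le_ordCond hP, cardClasses_ord_le hp2 hq hP hsm, hmem⟩

omit [IsAdicComplete (maximalIdeal 𝒪) 𝒪] in
/-- The condition at `p` of a flat datum. -/
theorem exists_flat_cond (hp2 : p ≠ 2) {R : GQ →* Mat2 (ResidueField 𝒪)} (h : TW.TWHyp p R)
    {T : Type} [CommRing T] [IsLocalRing T] [Algebra 𝒪 T] {ρ : GaloisRepAdic T}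
    (hflat : ρ.IsFlatAt p) (hdet : ρ.DetIsCyclotomic p) {π : T →+* ResidueField 𝒪}
    (hπO : ∀ o, π (algebraMap 𝒪 T o) = residue 𝒪 o)
    {r : GQ →* Mat2 T} (hr : HasMatrix ρ r) (hR : ∀ σ, (r σ).map π = R σ) {q : Nat.Primes}
    (hq : (q : ℕ) = p) (hsm : (GD.LD (some q)).Smooth (GD.Ad0 R)) :
    ∃ Lp : AddSubgroup ((GD.LD (some q)).Z1 (GD.Ad0 R)),
      ((GD.LD (some q)).B1 (GD.Ad0 R)).addSubgroupOf ((GD.LD (some q)).Z1 (GD.Ad0 R)) ≤ Lp ∧
      GD.cardClasses (GD.Ad0 R) (some q) Lp ≤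
        Nat.card ((GD.LD (some q)).fixed (GD.Ad0 R)) * Nat.card (ResidueField 𝒪) ∧
      ∀ (D : tanGroup 𝒪 π) (x : (GD.LD (some q)).Z1 (GD.Ad0 R)),
        (∀ d : GD.decomp (some q), GD.Ad0.mat (x.1 d) = (toTan D).cocycle r R d) → x ∈ Lp := by
  refine ⟨GD.spanCond R q (LL.flatFns p R), GD.b1_le_spanCond q _, ?_, fun D x hx => ?_⟩
  · refine GD.cardClasses_span_le hp2 hsm _
      (fun c hc x => ⟨fun σ => ?_, LL.hasFlatLift_add_coboundary hc.2 x.1⟩) fun i c hc hli => ?_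
    · rw [Matrix.trace_add, Matrix.trace_sub, GD.trace_conj_rep, sub_self, add_zero, hc.1 σ]
    · exact FlatBound.flat_cocycles_le_four hp2 h.det_cyclotomic
        (A := GD.placeAt q) (hq ▸ GD.placeAt_liesOverPrime q) c (fun j => (hc j).1)
        (fun j => (hc j).2) hli
  · refine GD.mem_spanCond.mpr ?_
    have e : GD.matFun q x = GD.resFun q ((toTan D).cocycle r R) := funext hx
    rw [e]
    rcases eq_or_ne D 0 with rfl | hD
    · have h0 : GD.resFun q ((toTan (0 : tanGroup 𝒪 π)).cocycle r R) = 0 := funext fun d => by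
        show (toTan (0 : tanGroup 𝒪 π)).cocycle r R d = 0
        exact (toTan _).cocycle_eq_zero_of_map r R (by ext; rfl)
      rw [h0]
      exact zero_mem _
    · have hsurj : ∀ x : ResidueField 𝒪, ∃ o : 𝒪, π (algebraMap 𝒪 T o) = x := fun x => by
        obtain ⟨o, rfl⟩ := residue_surjective x
        exact ⟨o, hπO o⟩
      obtain ⟨t, ht, ht1⟩ := exists_eq_one hsurj hD
      refine Submodule.subset_span (Set.mem_union_left _ ⟨_, ⟨fun σ => ?_, ?_⟩, rfl⟩)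
      · exact (toTan D).trace_cocycle hR (deriv_det_eq_zero hdet hr D σ)
      · exact (toTan D).hasFlatLift hR hr hflat (fun y => by
          obtain ⟨o, ho⟩ := hsurj y
          exact ⟨_, ho, D.2.2 o⟩) ht ht1

/-- **Auxiliary primes bounding the deformation rings.** -/
theorem exists_primes_surjective (hp2 : p ≠ 2)
    (habs : ρbar.IsAbsolutelyIrreducible)
    (hdet : (GaloisRepAdic.ofResidualGaloisRep ρbar).DetIsCyclotomic p)
    (hsplit : ∀ σ : GQ, ∃ α β : ResidueField 𝒪, LinearMap.charpoly (ρbar.ρ σ) =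
      (Polynomial.X - Polynomial.C α) * (Polynomial.X - Polynomial.C β))
    (hTW : ∀ (K : Type) [Field K] [Algebra (ResidueField 𝒪) K] (G : Subgroup GQ), G.index = 2 →
      ∀ V : Submodule K (ρbar.baseChange K).V,
        (∀ σ ∈ G, ∀ x ∈ V, (ρbar.baseChange K).ρ σ x ∈ V) → V = ⊥ ∨ V = ⊤)
    (S Smin : Finset ℕ) (hpSmin : p ∈ Smin) (hSmin : Smin ⊆ S) (hS : ∀ q ∈ S, q.Prime)
    (hmin : ∀ q : ℕ, q.Prime → q ≠ p → (q ∈ Smin ↔ ¬ ρbar.IsUnramifiedAt q)) :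
    ∃ r : ℕ, ∀ n : ℕ, ∃ qv : Fin r → ℕ, Function.Injective qv ∧
      (∀ i, (qv i).Prime ∧ qv i ∉ S ∧ p ^ (n + 1) ∣ qv i - 1) ∧
      (∀ i, ∀ P : ValuationSubring (AlgebraicClosure ℚ), P.LiesOverPrime (qv i) →
        ∀ φ : GQ, P.IsFrobeniusAt φ (qv i) → ∃ α β : ResidueField 𝒪, α ≠ β ∧
          LinearMap.charpoly (ρbar.ρ φ) =
            (Polynomial.X - Polynomial.C α) * (Polynomial.X - Polynomial.C β)) ∧
      (∀ DQ : GaloisRep.DeformationRingData 𝒪 ρbar (fun _A _ _ _ ρ =>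
          GaloisRep.strictOrdinaryCondition 𝒪 p (Smin ∪ Finset.univ.image qv) ρ ∧
            ∀ q ∈ Smin, q.Prime → q ≠ p → ρ.IsUnipotentOnInertiaAt q),
        ∃ γ : MvPowerSeries (Fin r) 𝒪 →ₐ[𝒪] DQ.R, Function.Surjective γ) ∧
      (∀ DQ : GaloisRep.DeformationRingData 𝒪 ρbar (fun _A _ _ _ ρ =>
          GaloisRep.flatCondition 𝒪 p (Smin ∪ Finset.univ.image qv) ρ ∧
            ∀ q ∈ Smin, q.Prime → q ≠ p → ρ.IsUnipotentOnInertiaAt q),
        ∃ γ : MvPowerSeries (Fin r) 𝒪 →ₐ[𝒪] DQ.R, Function.Surjective γ) := by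
  classical
  have hp : p.Prime := Fact.out
  let b := Module.finBasisOfFinrankEq (ResidueField 𝒪) ρbar.V ρbar.finrank_eq
  set R : GQ →* Mat2 (ResidueField 𝒪) :=
    MonoidHom.comp (LinearMap.toMatrixAlgEquiv b).toMulEquiv.toMonoidHom ρbar.ρ with hRdef
  have h : TW.TWHyp p R := TW.twHyp_toMatrix p hp2 ρbar habs hdet hsplit hTW b
  have hbar : RHasMatrix ρbar R := ⟨b, fun σ => rfl⟩
  let S₀ : Finset Nat.Primes := S.subtype Nat.Prime
  have hmemS : ∀ q : Nat.Primes, q ∈ S₀ ↔ (q : ℕ) ∈ S := fun q => Finset.mem_subtype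
  have hpS₀ : (⟨p, Fact.out⟩ : Nat.Primes) ∈ S₀ := (hmemS _).mpr (hSmin hpSmin)
  have hunr : ∀ q : Nat.Primes, q ∉ S₀ → ∀ A : ValuationSubring (AlgebraicClosure ℚ),
      A.LiesOverPrime (q : ℕ) → ∀ σ ∈ A.inertiaSubgroupIn ℚ, R σ = 1 := fun q hq A hA σ hσ => by
    have hqS : (q : ℕ) ∉ S := fun h => hq ((hmemS q).mpr h)
    have hqp : (q : ℕ) ≠ p := fun e => hqS (e ▸ hSmin hpSmin)
    have hu : ρbar.IsUnramifiedAt q := by
      by_contra hc
      exact hqS (hSmin ((hmin q q.2 hqp).mpr hc))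
    rw [hRdef, MonoidHom.comp_apply, hu A hA σ hσ, map_one]
  obtain ⟨T₀, hST, r, -, hr'⟩ := GD.exists_taylorWiles_selmer hp2 h S₀ hpS₀ hunr 0
  obtain ⟨N₀, hN₀, -, hN₀R⟩ := GD.exists_level_ker hpS₀ R
    (by obtain ⟨F, hF, hF'⟩ := h.finite_level; exact ⟨F, hF, hF'⟩) hunr
  refine ⟨r, fun n => ?_⟩
  obtain ⟨Q, hQc, hQd, hQP, hbound⟩ := hr' n
  let e : Fin r ≃ Q := ((Q.equivFin).trans (finCongr hQc)).symm
  let qv : Fin r → ℕ := fun i => ((e i).1 : ℕ)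
  have X : TWData p R Smin r T₀ Q N₀ :=
    ⟨fun q hq => hST ((hmemS q).mpr (hSmin hq)), hQd, GD.isLevel_mono hST hN₀, hN₀R, hbound⟩
  have hram : ∀ l ∈ Smin, l ≠ p → ¬ ρbar.IsUnramifiedAt l := fun l hl hlp =>
    (hmin l (hS l (hSmin hl)) hlp).mp hl
  have hout : ∀ q : Nat.Primes, (q : ℕ) ∉ Smin → q ∉ Q → (q : ℕ) ∉ Smin ∪ Finset.univ.image qv := by
    intro q h1 h2 hq
    rcases Finset.mem_union.mp hq with h | h
    · exact h1 h
    · obtain ⟨i, -, hi⟩ := Finset.mem_image.mp h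
      exact h2 (Subtype.ext hi ▸ (e i).2)
  refine ⟨qv, fun i j hij => e.injective (Subtype.ext (Subtype.ext hij)),
    fun i => ⟨(e i).1.2, fun hmem => Finset.disjoint_left.mp hQd (e i).2
      (hST ((hmemS _).mpr hmem)), (hQP _ (e i).2).1⟩,
    fun i P hP φ hφ => ?_, fun DQ => ?_, fun DQ => ?_⟩
  · obtain ⟨α, β, hab, hc⟩ := (hQP _ (e i).2).2 P hP φ hφ
    exact ⟨α, β, hab, (LinearMap.charpoly_toMatrix (ρbar.ρ φ) b).symm.trans hc⟩
  · obtain ⟨⟨hd, hord, hu⟩, hunip⟩ := DQ.isOfType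
    exact surjective_of_datum hp2 hbar h hpSmin hram X DQ
      (fun φ hφ _ => ⟨⟨detIsCyclotomic_baseChange hφ hd, isStrictOrdinaryAt_baseChange hφ hord,
          fun q hq hq' => isUnramifiedAt_baseChange hφ (hu q hq hq')⟩,
        fun q h1 h2 h3 => isUnipotentOnInertiaAt_baseChange hφ (hunip q h1 h2 h3)⟩)
      hd (fun q h1 h2 => hu q q.2 (hout q h1 h2)) hunip
      fun πa m hm hR q hq hsm => exists_ordinary_cond hp2 h hord hd hm hR hq hsm
  · obtain ⟨⟨hd, hflat, hu⟩, hunip⟩ := DQ.isOfType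
    exact surjective_of_datum hp2 hbar h hpSmin hram X DQ
      (fun φ hφ hs => ⟨⟨detIsCyclotomic_baseChange hφ hd, isFlatAt_baseChange hφ hs hflat,
          fun q hq hq' => isUnramifiedAt_baseChange hφ (hu q hq hq')⟩,
        fun q h1 h2 h3 => isUnipotentOnInertiaAt_baseChange hφ (hunip q h1 h2 h3)⟩)
      hd (fun q h1 h2 => hu q q.2 (hout q h1 h2)) hunip
      fun πa m hm hR q hq hsm =>
        exists_flat_cond hp2 h hflat hd (fun o => πa.commutes o) hm hR hq hsm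

end Fermat.Agent.TW56
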